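/-
S56, WALL W4, CASE C, BLOCK KN (the count): SUB-ARCHITECT FILE (helper73).
Definitions and the EXACT statements (as `Prop`s) of the leaves of block KN.  FIXED.

Target: `CountProp p` (S56/W4/C/Defs.lean).  Assembly: `S56/W4/C/KN/Asm.lean` (helper73).

Notation: `P = Pp p`, `v(p) = 1`, `N = p² - 1`, `ϖ = s.ϖ` (`v(ϖ) = 1/N`), `ζ = zetaP p`,
`I₁ = I1 s = I ∩ ker ψ`, `K₁ = ℚ̄^{I₁}`, `κ = Kres p` the residue field of `P`.
For a function `χ : G → ℤ/p` (only its values on `I₁` matter):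
* `KumGE s n χ β` : `β ≠ 0`, `γ β = ζ^{χ γ} β` for `γ ∈ I₁`, and `v(β - 1) ≥ n / (p N)`;
* `GoodAt s n χ`  : some `β` with `KumGE s n χ β`   (`GoodChar s χ = GoodAt s (p² + 1) χ`);
* `LcIs s n χ a`  : some `β` with `KumGE s n χ β` and `a = ((β^p - 1) / ϖ^n mod 𝔪)`
                    ("the leading coefficient at level `n` of the Kummer class of `χ` is `a`").

LEAVES (all for `p ≠ 2`, determinant cyclotomic)
* LEV-A (`LevZeroProp`, `LevNegProp`, `LevExistsProp`, `LevAddProp`, `LevConjProp`): valuation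
  arithmetic only.
* LEV-B (`UnifProp`, `LevUniqueProp`, `LevNextProp`): `ϖ` is a uniformiser of `K₁`.
* LEV-C (`LevTopProp`): `v(β - 1) ≥ 1/(p-1)` ⟹ `χ = 0` on `I₁`.
* TAME  (`TameProp`): the residue `λ` of `τ ϖ / ϖ` has exact order `N` and is conjugate to `ψ τ`.
* GEN   (`FieldGenProp`, pure algebra): generators of `k` over `𝔽_p[ν]`.
* COH   (helper25, DONE: `S56/W4/C/KN/Coh.lean`, namespace `SS.KNCoh`): `resLoc_eq_of_eq_on_I1`
  (restriction to `I₁` is injective on local classes), `conj_mem_I1`, `coc_conj`,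
  `ent_conj_inertia`, `mat_act_frob`.
INTERMEDIATE STATEMENTS (assembly in two steps)
* FAM   (`GoodGrpProp`, `DiagProp`, `KeyProp`) from LEV + TAME + GEN + COH   (`KN/Fam.lean`);
* ASM   (`CountProp p`) from FAM + COH                                      (`KN/Asm.lean`).
-/
import Fermat.Agent.S56.W4.C.Defs
import Fermat.Agent.Lib.FFL.FB.CountCore

set_option autoImplicit false

namespace Fermat.Agent.S56.SS

open Fermat.Agent.F4 ExtCitation Fermat.Agent.FFL Fermat.Agent.FlatMod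

local notation "Kb" => AlgebraicClosure ℚ
local notation "GK" => (AlgebraicClosure ℚ ≃ₐ[ℚ] AlgebraicClosure ℚ)

/-! ### Definitions -/

/-- The residue field of the place at `p`. -/
abbrev Kres (p : ℕ) [Fact p.Prime] : Type := IsLocalRing.ResidueField ↥(Pp p)

variable {p : ℕ} [Fact p.Prime] {k : Type} [Field k]

/-- `a` is the residue class of `x ∈ P`. -/
def IsRes (x : Kb) (a : Kres p) : Prop :=
  ∃ h : x ∈ Pp p, IsLocalRing.residue ↥(Pp p) ⟨x, h⟩ = a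

/-- The endomorphism-valued function of a cocycle. -/
def cE {ρbar : ResidualGaloisRep k} (c : ↥(Z1 levelsAll (ad0 ρbar))) :
    GK → Module.End k ρbar.V :=
  fun σ => ((c : GQ → ad0 ρbar) σ : ↥(ad0Sub ρbar)).1

/-- `β` is a Kummer generator of `χ` on `I₁` with `v(β - 1) ≥ n / (p (p² - 1))`. -/
def KumGE {ρbar : ResidualGaloisRep k} (s : SSStruct p ρbar) (n : ℕ) (χ : GK → ZMod p)
    (β : Kb) : Prop :=
  β ≠ 0 ∧ (∀ γ ∈ I1 s, γ β = zetaP p ^ (χ γ).val * β) ∧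
    ValGE p (Pp p) (β - 1) n (p * (p ^ 2 - 1))

/-- `χ` has a Kummer generator of depth `≥ n / (p (p² - 1))`. -/
def GoodAt {ρbar : ResidualGaloisRep k} (s : SSStruct p ρbar) (n : ℕ) (χ : GK → ZMod p) : Prop :=
  ∃ β : Kb, KumGE s n χ β

theorem goodChar_iff_goodAt {ρbar : ResidualGaloisRep k} (s : SSStruct p ρbar)
    (χ : GK → ZMod p) : GoodChar s χ ↔ GoodAt s (p ^ 2 + 1) χ := Iff.rfl

/-- The leading coefficient at level `n` of (the Kummer class of) `χ` is `a`. -/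
def LcIs {ρbar : ResidualGaloisRep k} (s : SSStruct p ρbar) (n : ℕ) (χ : GK → ZMod p)
    (a : Kres p) : Prop :=
  ∃ β : Kb, KumGE s n χ β ∧ IsRes ((β ^ p - 1) / s.ϖ ^ n) a

variable (p)

/-- The hypotheses common to all leaves. -/
def DetCyc (ρbar : ResidualGaloisRep k) : Prop :=
  (GaloisRepAdic.ofResidualGaloisRep ρbar).DetIsCyclotomic p

/-! ### LEV-A: valuation arithmetic -/

/-- **L0**: the trivial character has leading coefficient `0` (`β = 1`). -/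
def LevZeroProp : Prop :=
  ∀ (k : Type) [Field k] [Finite k] (ρbar : ResidualGaloisRep k) (s : SSStruct p ρbar),
    p ≠ 2 → ∀ n : ℕ, LcIs s n (fun _ => 0) 0

/-- **L0'**: `GoodAt` is stable under negation (`β⁻¹`). -/
def LevNegProp : Prop :=
  ∀ (k : Type) [Field k] [Finite k] (ρbar : ResidualGaloisRep k) (s : SSStruct p ρbar),
    p ≠ 2 → ∀ (n : ℕ) (χ : GK → ZMod p), 0 < n → GoodAt s n χ → GoodAt s n (fun γ => -χ γ)

/-- **L1**: leading coefficients exist: `v(β - 1) ≥ n/(pN)`, `n ≤ p² + p` ⟹ `v(β^p - 1) ≥ n/N`. -/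
def LevExistsProp : Prop :=
  ∀ (k : Type) [Field k] [Finite k] (ρbar : ResidualGaloisRep k) (s : SSStruct p ρbar),
    p ≠ 2 → ∀ (n : ℕ) (χ : GK → ZMod p), 0 < n → n ≤ p ^ 2 + p →
      GoodAt s n χ → ∃ a : Kres p, LcIs s n χ a

/-- **L3**: leading coefficients are additive (`β β'`). -/
def LevAddProp : Prop :=
  ∀ (k : Type) [Field k] [Finite k] (ρbar : ResidualGaloisRep k) (s : SSStruct p ρbar),
    p ≠ 2 → ∀ (n : ℕ) (χ χ' : GK → ZMod p) (a a' : Kres p), 0 < n →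
      LcIs s n χ a → LcIs s n χ' a' → LcIs s n (fun γ => χ γ + χ' γ) (a + a')

/-- **L6**: Galois action.  `σ` in the decomposition group acting on the residue field as
`x ↦ x^q` (`q = 1` for `σ` in inertia, `q = p^m` for `σ = φ^m`, `φ` a Frobenius element),
`e` the residue of `σ ϖ / ϖ`: the character `γ ↦ cyc(σ) · χ(σ⁻¹ γ σ)` (Kummer generator `σ β`)
has leading coefficient `e^n a^q`. -/
def LevConjProp : Prop :=
  ∀ (k : Type) [Field k] [Finite k] (ρbar : ResidualGaloisRep k) (s : SSStruct p ρbar),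
    p ≠ 2 → ∀ σ ∈ Dp p, ∀ (q : ℕ) (e : Kres p),
      (∀ x ∈ Pp p, σ x - x ^ q ∈ (Pp p).nonunits) → IsRes (σ s.ϖ / s.ϖ) e →
      ∀ (n : ℕ) (χ : GK → ZMod p) (a : Kres p), LcIs s n χ a →
        LcIs s n (fun γ => ((cycloChar p σ : (ZMod p)ˣ) : ZMod p) * χ (σ⁻¹ * γ * σ))
          (e ^ n * a ^ q)

/-! ### LEV-B: `ϖ` is a uniformiser of `K₁` -/

/-- **UNIF**: an `I₁`-fixed nonunit of `P` is divisible by `ϖ`.
[`∏_{j<N} τ^j x` is inertia-fixed (`I = ⋃ τ^j I₁`, `I₁` normal in `I`) and a nonunit, so divisible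
by `p` (`unrProp`); `τ^j x / x` is a unit; so `x^N / p ∈ P`, and `p / ϖ^N ∈ P`.] -/
def UnifProp : Prop :=
  ∀ (k : Type) [Field k] [Finite k] (ρbar : ResidualGaloisRep k) (s : SSStruct p ρbar),
    p ≠ 2 → ∀ x ∈ (Pp p).nonunits, (∀ γ ∈ I1 s, γ x = x) → x / s.ϖ ∈ Pp p

/-- **L2**: leading coefficients at the levels `p² + 1 ≤ n < p² + p` are unique.
[`w = β/β'` is `I₁`-fixed, `v(w - 1) ≥ n/(pN) > p/N`, so `v(w - 1) ≥ (p+1)/N` (UNIF) and
`v(w^p - 1) ≥ (p² + p)/N > n/N`.] -/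
def LevUniqueProp : Prop :=
  ∀ (k : Type) [Field k] [Finite k] (ρbar : ResidualGaloisRep k) (s : SSStruct p ρbar),
    p ≠ 2 → DetCyc p ρbar → ∀ (n : ℕ) (χ : GK → ZMod p) (a a' : Kres p),
      p ^ 2 + 1 ≤ n → n < p ^ 2 + p → LcIs s n χ a → LcIs s n χ a' → a = a'

/-- **L4**: leading coefficient `0` at level `n` ⟹ good at level `n + 1`.
[`u = β^p` is `I₁`-fixed with `(u - 1)/ϖ^n ∈ 𝔪`, so `(u - 1)/ϖ^(n+1) ∈ P` (UNIF); then
`u - 1 = y^p + p y · unit`, `y = β - 1`: if `y^(p-1)/p ∈ P` then `v(y) ≥ 1/(p-1) ≥ (n+1)/(pN)`,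
otherwise `u - 1 = y^p · unit`.] -/
def LevNextProp : Prop :=
  ∀ (k : Type) [Field k] [Finite k] (ρbar : ResidualGaloisRep k) (s : SSStruct p ρbar),
    p ≠ 2 → DetCyc p ρbar → ∀ (n : ℕ) (χ : GK → ZMod p),
      p ^ 2 + 1 ≤ n → n < p ^ 2 + p → LcIs s n χ 0 → GoodAt s (n + 1) χ

/-! ### LEV-C: the top level -/

/-- **L5**: a character with a Kummer generator `β`, `v(β - 1) ≥ 1/(p-1)`, is trivial on `I₁`.
[`ζ` is `I₁`-fixed (determinant cyclotomic and `ψ^(p+1) = det`); `β = 1 + (ζ - 1) y`, `y ∈ P`;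
`(ζ^c - 1) β = γ β - β = (ζ - 1)(γ y - y)` with `γ y - y ∈ 𝔪`, and `(ζ^c - 1)/(ζ - 1) ≡ c`.] -/
def LevTopProp : Prop :=
  ∀ (k : Type) [Field k] [Finite k] (ρbar : ResidualGaloisRep k) (s : SSStruct p ρbar),
    p ≠ 2 → DetCyc p ρbar → ∀ χ : GK → ZMod p,
      GoodAt s (p ^ 2 + p) χ → ∀ γ ∈ I1 s, χ γ = 0

/-! ### TAME: the residue of `τ ϖ / ϖ` -/

/-- **TAME**: the residue `lam` of `τ ϖ / ϖ` satisfies `lam^N = 1`, has exact order `N`,
`lam^(p+1)` is the cyclotomic character of `τ`, and with `ν = (ψ τ)^(2p)`,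
`f = Y² - t' Y + n'` (`t' = t² - 2n`, `n' = n²` for `t, n` as in `ϖ_char`):
`f(ν) = 0` in `k`, `f(lam^m) = (lam^m - lam²)(lam^m - lam^(2p)) ≠ 0` for `p² + 2 ≤ m < p² + p`. -/
def TameProp : Prop :=
  ∀ (k : Type) [Field k] [Finite k] (ρbar : ResidualGaloisRep k) (s : SSStruct p ρbar),
    p ≠ 2 → DetCyc p ρbar →
    ∃ lam : Kres p, IsRes (s.τ s.ϖ / s.ϖ) lam ∧ lam ^ (p ^ 2 - 1) = 1 ∧
      (∀ m : ℕ, p ^ 2 + 1 ≤ m → m < p ^ 2 + p →
        ((((cycloChar p s.τ : (ZMod p)ˣ) : ZMod p).val : ℕ) : Kres p) ≠ lam ^ m) ∧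
      ∃ t' n' : ℤ,
        ((s.ψ s.τ) ^ (2 * p)) ^ 2 - (t' : k) * (s.ψ s.τ) ^ (2 * p) + (n' : k) = 0 ∧
        ∀ m : ℕ, p ^ 2 + 2 ≤ m → m < p ^ 2 + p →
          (lam ^ m) ^ 2 - (t' : Kres p) * lam ^ m + (n' : Kres p) ≠ 0

/-! ### GEN: generators of `k` over `𝔽_p[ν]` (pure algebra) -/

/-- **GEN**: if `ν ∈ k` generates the subfield with `p²` elements (`ν^(p²) = ν`, `ν^p ≠ ν`), then
`k` is generated as an additive group by the `ν^n x_j` for `g` elements `x_j`, `(p²)^g = #k`.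
[`F = 𝔽_p(ν)` has `p²` elements and is the additive span of the powers of `ν`; `x` = a basis of
`k` over `F`.] -/
def FieldGenProp : Prop :=
  ∀ (k : Type) [Field k] [Finite k], (p : k) = 0 → ∀ ν : k, ν ^ (p ^ 2) = ν → ν ^ p ≠ ν →
    ∃ (g : ℕ) (x : Fin g → k),
      AddSubgroup.closure {y : k | ∃ (n : ℕ) (j : Fin g), y = ν ^ n * x j} = ⊤ ∧
      (p ^ 2) ^ g = Nat.card k

/-! ### FAM: the intermediate statements -/

/-- **GRP**: the good cocycles form a group. -/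
def GoodGrpProp : Prop :=
  ∀ (k : Type) [Field k] [Finite k] (ρbar : ResidualGaloisRep k) (s : SSStruct p ρbar),
    p ≠ 2 → DetCyc p ρbar →
    GoodCoc s (fun _ => (0 : Module.End k ρbar.V)) ∧
    (∀ c c' : GK → Module.End k ρbar.V, GoodCoc s c → GoodCoc s c' →
      GoodCoc s (fun σ => c σ + c' σ)) ∧
    ∀ c : GK → Module.End k ρbar.V, GoodCoc s c → GoodCoc s (fun σ => -c σ)

/-- **DIAG**: the diagonal entries of a good cocycle vanish on `I₁`. -/
def DiagProp : Prop :=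
  ∀ (k : Type) [Field k] [Finite k] (ρbar : ResidualGaloisRep k) (s : SSStruct p ρbar),
    p ≠ 2 → DetCyc p ρbar → ∀ c : ↥(Z1 levelsAll (ad0 ρbar)), GoodCoc s (cE c) →
      ∀ γ ∈ I1 s, ent s (cE c) 0 0 γ = 0

/-- **KEY**: the leading coefficient map of the entry `(0, 1)`: a map `K` from cocycles to a set
`S` of at most `#k` functions `k → κ`, which determines the entry `(0, 1)` on `I₁` of a good
cocycle. -/
def KeyProp : Prop :=
  ∀ (k : Type) [Field k] [Finite k] (ρbar : ResidualGaloisRep k) (s : SSStruct p ρbar),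
    p ≠ 2 → DetCyc p ρbar →
    ∃ (S : Set (k → Kres p)) (K : ↥(Z1 levelsAll (ad0 ρbar)) → (k → Kres p)),
      S.Finite ∧ S.ncard ≤ Nat.card k ∧
      (∀ c, GoodCoc s (cE c) → K c ∈ S) ∧
      ∀ c c', GoodCoc s (cE c) → GoodCoc s (cE c') → K c = K c' →
        ∀ γ ∈ I1 s, ent s (cE c) 0 1 γ = ent s (cE c') 0 1 γ

end Fermat.Agent.S56.SS
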