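/-
S56, wall W4, case C, block KN, leaf ASM (owner: helper25):
`countProp : GoodGrpProp p → DiagProp p → KeyProp p → CountProp p`.

`L` := the image under `resLoc ∘ H1smπ` of the subgroup of good cocycles (GRP).  A class of `L` is
determined by the value of the map `K` of KEY at a good representative `c`:
`K c = K c'` ⟹ the entries `(0, 1)` agree on `I₁` ⟹ the entries `(1, 0)` agree on `I₁`
(conjugation by a Frobenius element exchanges them: `KNCoh.mat_act_frob`, `coc_conj`,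
`conj_mem_I1`); the diagonal entries vanish on `I₁` (DIAG and trace `0`); so `c = c'` on `I₁`,
and the local classes agree (`KNCoh.resLoc_eq_of_eq_on_I1`).  Hence `#L ≤ #S ≤ #k`.
-/
import Fermat.Agent.S56.W4.C.KN.Defs
import Fermat.Agent.S56.W4.C.KN.Coh

set_option autoImplicit false

namespace Fermat.Agent.S56.SS.KNAsm

open Fermat.Agent.F4 ExtCitation Fermat.Agent.S56.SO Fermat.Agent.S56.SS.KNCoh Matrix

variable {p : ℕ} [Fact p.Prime] {k : Type} [Field k] {ρbar : ResidualGaloisRep k}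

/-! ### The entries of a cocycle -/

theorem ent_cE (s : SSStruct p ρbar) (c : ↥(Z1 levelsAll (ad0 ρbar))) (i j : Fin 2) (γ : GQ) :
    ent s (cE c) i j γ = mat s.b (toEnd ρbar ((c : GQ → ad0 ρbar) γ)) i j := by
  rw [mat_apply]
  rfl

theorem cE_zero : cE (0 : ↥(Z1 levelsAll (ad0 ρbar))) = fun _ => (0 : Module.End k ρbar.V) := rfl

theorem cE_add (c c' : ↥(Z1 levelsAll (ad0 ρbar))) :
    cE (c + c') = fun σ => cE c σ + cE c' σ := rfl

theorem cE_neg (c : ↥(Z1 levelsAll (ad0 ρbar))) : cE (-c) = fun σ => -cE c σ := rfl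

omit [Fact p.Prime] in
/-- `(p : k) = 0` from the determinant condition. -/
theorem natCast_eq_zero_of_detCyc (hdet : DetCyc p ρbar) : (p : k) = 0 := by
  have h := hdet.1
  rwa [IsLocalRing.mem_maximalIdeal, mem_nonunits_iff, isUnit_iff_ne_zero, not_not] at h

/-! ### Two good cocycles with the same entry `(0, 1)` on `I₁` agree on `I₁` -/

/-- If the entries `(0, 0)` and `(0, 1)` of `c` and `c'` agree on `I₁`, then `c = c'` on `I₁`. -/
theorem eq_on_I1 (s : SSStruct p ρbar) (c c' : ↥(Z1 levelsAll (ad0 ρbar)))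
    (h00 : ∀ γ ∈ I1 s, ent s (cE c) 0 0 γ = ent s (cE c') 0 0 γ)
    (h01 : ∀ γ ∈ I1 s, ent s (cE c) 0 1 γ = ent s (cE c') 0 1 γ) :
    ∀ γ ∈ I1 s, (c : GQ → ad0 ρbar) γ = (c' : GQ → ad0 ρbar) γ := by
  obtain ⟨φ, hΦ, -⟩ := Fermat.Agent.S56.TWGen.exists_frob_gen (pPrime p)
  have hΦ' : (Pp p).IsFrobeniusAt (locp p φ) p := hΦ
  have hΦD : locp p φ ∈ Dp p := hΦ'.mem_decompositionSubgroup
  intro γ hγ
  have e00 := h00 γ hγ
  have e01 := h01 γ hγ
  rw [ent_cE, ent_cE] at e00 e01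
  have t := mat_trace ρbar s.b ((c : GQ → ad0 ρbar) γ)
  have t' := mat_trace ρbar s.b ((c' : GQ → ad0 ρbar) γ)
  -- the entry (1, 0), by conjugation with the Frobenius element
  have e10 : mat s.b (toEnd ρbar ((c : GQ → ad0 ρbar) γ)) 1 0 =
      mat s.b (toEnd ρbar ((c' : GQ → ad0 ρbar) γ)) 1 0 := by
    have hγ' : locp p φ * γ * (locp p φ)⁻¹ ∈ I1 s := conj_mem_I1 s hΦD hγ
    have f01 := h01 _ hγ'
    rw [ent_cE, ent_cE, coc_conj s c _ hγ, coc_conj s c' _ hγ] at f01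
    obtain ⟨hF01, hF10, -, -, m1, -⟩ := mat_act_frob s hΦ' ((c : GQ → ad0 ρbar) γ)
    obtain ⟨-, -, -, -, m1', -⟩ := mat_act_frob s hΦ' ((c' : GQ → ad0 ρbar) γ)
    rw [f01, m1'] at m1
    exact (mul_left_cancel₀ hF01 m1).symm
  refine ad0_ext ρbar s.b fun i j => ?_
  fin_cases i <;> fin_cases j
  · exact e00
  · exact e01
  · exact e10
  · show mat s.b (toEnd ρbar ((c : GQ → ad0 ρbar) γ)) 1 1 =
      mat s.b (toEnd ρbar ((c' : GQ → ad0 ρbar) γ)) 1 1
    rw [eq_neg_of_add_eq_zero_right t, eq_neg_of_add_eq_zero_right t', e00]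

end Fermat.Agent.S56.SS.KNAsm

/-! ### The assembly -/

namespace Fermat.Agent.S56.SS

open Fermat.Agent.F4 ExtCitation Fermat.Agent.S56.SO Fermat.Agent.S56.SS.KNCoh
open Fermat.Agent.S56.SS.KNAsm

/-- **Block KN**, assembly. -/
theorem countProp (p : ℕ) [Fact p.Prime] (hG : GoodGrpProp p) (hD : DiagProp p) (hK : KeyProp p) : CountProp p := by
  intro k _ _ ρbar s hp2 hdet
  have hpk : (p : k) = 0 := natCast_eq_zero_of_detCyc hdet
  obtain ⟨g0, gadd, gneg⟩ := hG k ρbar s hp2 hdet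
  obtain ⟨S, K, hSfin, hScard, hKS, hKinj⟩ := hK k ρbar s hp2 hdet
  -- the subgroup of good cocycles
  let Gd : AddSubgroup ↥(Z1 levelsAll (ad0 ρbar)) :=
    { carrier := {c | GoodCoc s (cE c)}
      zero_mem' := g0
      add_mem' := fun {c c'} hc hc' => gadd (cE c) (cE c') hc hc'
      neg_mem' := fun {c} hc => gneg (cE c) hc }
  let Φ : ↥(Z1 levelsAll (ad0 ρbar)) →+ H1loc (ad0 ρbar) (pPrime p) :=
    (resLoc (ad0 ρbar) (pPrime p)).toAddMonoidHom.comp
      (H1smπ levelsAll (ad0 ρbar)).toAddMonoidHom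
  have hΦ : ∀ c, Φ c = resLoc (ad0 ρbar) (pPrime p) (H1smπ levelsAll (ad0 ρbar) c) :=
    fun _ => rfl
  refine ⟨Gd.map Φ, ?_, ?_⟩
  · rintro x ⟨c, rfl, hc⟩
    exact ⟨c, hc, rfl⟩
  -- the count
  have hex : ∀ y : ↥(Gd.map Φ), ∃ c : ↥(Z1 levelsAll (ad0 ρbar)),
      GoodCoc s (cE c) ∧ Φ c = y.1 := fun y => y.2
  choose rep hrep_good hrep using hex
  have : Finite ↥S := hSfin.to_subtype
  let f : ↥(Gd.map Φ) → ↥S := fun y => ⟨K (rep y), hKS _ (hrep_good y)⟩
  have hf : Function.Injective f := by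
    intro y y' hyy'
    have hKeq : K (rep y) = K (rep y') := congrArg Subtype.val hyy'
    have h01 := hKinj _ _ (hrep_good y) (hrep_good y') hKeq
    have h00 : ∀ γ ∈ I1 s, ent s (cE (rep y)) 0 0 γ = ent s (cE (rep y')) 0 0 γ := by
      intro γ hγ
      rw [hD k ρbar s hp2 hdet (rep y) (hrep_good y) γ hγ,
        hD k ρbar s hp2 hdet (rep y') (hrep_good y') γ hγ]
    have hloc := resLoc_eq_of_eq_on_I1 s hp2 hpk (rep y) (rep y')
      (eq_on_I1 s (rep y) (rep y') h00 h01)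
    apply Subtype.ext
    rw [← hrep y, ← hrep y', hΦ, hΦ, hloc]
  refine ⟨Finite.of_injective f hf, ?_⟩
  calc Nat.card ↥(Gd.map Φ) ≤ Nat.card ↥S := Nat.card_le_card_of_injective f hf
    _ = S.ncard := Nat.card_coe_set_eq S
    _ ≤ Nat.card k := hScard

end Fermat.Agent.S56.SS
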