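/-
S56, W4-C, block KN (helper73): the abstract core of the family argument (Mathlib only).

`X` an abelian group ("the parameters `x` of the characters `χ_x`"), `κ` a field ("the residue
field"), `R : X → κ → Prop` a functional, total, additive relation ("the leading coefficient of
`χ_x` is `a`").
* `famFun`          : the function `X → κ` of such a relation, with its properties;
* `fam_vanish`      : if `R x a → R (T x) (z a)` for a map `T` with `T² - t' T + n' = 0`
                      (`t', n' ∈ ℤ`) and `z² - t' z + n' ≠ 0`, then `R x 0` for all `x`;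
* `fam_induction`   : induction over the levels `n₀ ≤ n ≤ n₁`.
-/
import Mathlib

set_option autoImplicit false

namespace Fermat.Agent.S56.SS.KNFam

variable {X κ : Type*} [AddCommGroup X] [Field κ]

/-- A functional, total, additive relation between `X` and `κ`. -/
structure IsAddRel (R : X → κ → Prop) : Prop where
  tot : ∀ x, ∃ a, R x a
  uniq : ∀ x a a', R x a → R x a' → a = a'
  add : ∀ x y a b, R x a → R y b → R (x + y) (a + b)

/-- The function of a functional total relation. -/
noncomputable def famFun {R : X → κ → Prop} (hR : IsAddRel R) (x : X) : κ :=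
  Classical.choose (hR.tot x)

theorem famFun_spec {R : X → κ → Prop} (hR : IsAddRel R) (x : X) : R x (famFun hR x) :=
  Classical.choose_spec (hR.tot x)

theorem famFun_eq {R : X → κ → Prop} (hR : IsAddRel R) {x : X} {a : κ} (h : R x a) :
    famFun hR x = a :=
  hR.uniq x _ _ (famFun_spec hR x) h

theorem famFun_add {R : X → κ → Prop} (hR : IsAddRel R) (x y : X) :
    famFun hR (x + y) = famFun hR x + famFun hR y :=
  famFun_eq hR (hR.add x y _ _ (famFun_spec hR x) (famFun_spec hR y))

/-- The function of the relation as an additive map. -/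
noncomputable def famHom {R : X → κ → Prop} (hR : IsAddRel R) : X →+ κ :=
  AddMonoidHom.mk' (famFun hR) (famFun_add hR)

theorem famHom_apply {R : X → κ → Prop} (hR : IsAddRel R) (x : X) :
    famHom hR x = famFun hR x := rfl

theorem famFun_zsmul {R : X → κ → Prop} (hR : IsAddRel R) (m : ℤ) (x : X) :
    famFun hR (m • x) = (m : κ) * famFun hR x := by
  have := map_zsmul (famHom hR) m x
  rw [famHom_apply, famHom_apply, zsmul_eq_mul] at this
  exact this

theorem famFun_zero {R : X → κ → Prop} (hR : IsAddRel R) : famFun hR 0 = 0 := by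
  have := map_zero (famHom hR)
  rwa [famHom_apply] at this

/-- **Vanishing by equivariance** (the polynomial trick). -/
theorem fam_vanish {R : X → κ → Prop} (hR : IsAddRel R) (T : X → X) (z : κ) (t' n' : ℤ)
    (heq : ∀ x a, R x a → R (T x) (z * a))
    (hrel : ∀ x, T (T x) + n' • x = t' • T x)
    (hne : z ^ 2 - (t' : κ) * z + (n' : κ) ≠ 0) (x : X) : R x 0 := by
  have h1 : famFun hR (T x) = z * famFun hR x := famFun_eq hR (heq x _ (famFun_spec hR x))
  have h2 : famFun hR (T (T x)) = z * (z * famFun hR x) := by
    rw [famFun_eq hR (heq (T x) _ (famFun_spec hR (T x))), h1]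
  have h3 := congrArg (famFun hR) (hrel x)
  rw [famFun_add, famFun_zsmul, famFun_zsmul, h1, h2] at h3
  have h4 : (z ^ 2 - (t' : κ) * z + (n' : κ)) * famFun hR x = 0 := by
    linear_combination h3
  have h5 : famFun hR x = 0 := by
    rcases mul_eq_zero.1 h4 with h | h
    · exact absurd h hne
    · exact h
  have := famFun_spec hR x
  rwa [h5] at this

/-- **Induction over the levels.**  `G n x`: "`χ_x` is good at level `n`"; `R n x a`: "the leading
coefficient of `χ_x` at level `n` is `a`".  If all `x` are good at level `n₀`, and at every level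
`n₀ ≤ n < n₁` at which all `x` are good all leading coefficients vanish, then all `x` are good at
level `n₁`. -/
theorem fam_induction (G : ℕ → X → Prop) (R : ℕ → X → κ → Prop) (n₀ n₁ : ℕ)
    (hbase : ∀ x, G n₀ x)
    (hnext : ∀ n x, n₀ ≤ n → n < n₁ → R n x 0 → G (n + 1) x)
    (hvan : ∀ n, n₀ ≤ n → n < n₁ → (∀ x, G n x) → ∀ x, R n x 0)
    (n : ℕ) (hn0 : n₀ ≤ n) (hn1 : n ≤ n₁) : ∀ x, G n x := by
  induction n, hn0 using Nat.le_induction with
  | base => exact hbase
  | succ m hm ih =>
    intro x
    have hm1 : m < n₁ := hn1
    exact hnext m x hm hm1 (hvan m hm hm1 (ih (le_of_lt hm1)) x)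

end Fermat.Agent.S56.SS.KNFam
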