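/-
S56, W4-C, block KN (helper73): the family argument.
`GoodGrpProp`, `DiagProp`, `KeyProp` from the leaves LEV-A/B/C, TAME, GEN and `KN/Coh.lean`.
-/
import Fermat.Agent.S56.W4.C.KN.Defs
import Fermat.Agent.S56.W4.C.KN.Coh
import Fermat.Agent.S56.W4.C.KN.FamCore
import Fermat.Agent.S56.W3.SO.CycLoc
import Fermat.Agent.S56.W3.SO.Place

set_option autoImplicit false

namespace Fermat.Agent.S56.SS.KNFam

open Fermat.Agent.F4 ExtCitation Fermat.Agent.FFL Fermat.Agent.FlatMod Fermat.Agent.S56.SO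
open Fermat.Agent.S56.SS.KNCoh Fermat.Agent.FFL.FB

local notation "Kb" => AlgebraicClosure ℚ
local notation "GK" => (AlgebraicClosure ℚ ≃ₐ[ℚ] AlgebraicClosure ℚ)

variable {p : ℕ} [Fact p.Prime] {k : Type} [Field k] {ρbar : ResidualGaloisRep k}

/-! ### Preliminaries -/

theorem kumGE_congr (s : SSStruct p ρbar) {n : ℕ} {χ χ' : GK → ZMod p} {β : Kb}
    (h : ∀ γ ∈ I1 s, χ γ = χ' γ) (hβ : KumGE s n χ β) : KumGE s n χ' β :=
  ⟨hβ.1, fun γ hγ => by rw [← h γ hγ]; exact hβ.2.1 γ hγ, hβ.2.2⟩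

theorem goodAt_congr (s : SSStruct p ρbar) {n : ℕ} {χ χ' : GK → ZMod p}
    (h : ∀ γ ∈ I1 s, χ γ = χ' γ) (hχ : GoodAt s n χ) : GoodAt s n χ' := by
  obtain ⟨β, hβ⟩ := hχ
  exact ⟨β, kumGE_congr s h hβ⟩

theorem lcIs_congr (s : SSStruct p ρbar) {n : ℕ} {χ χ' : GK → ZMod p} {a : Kres p}
    (h : ∀ γ ∈ I1 s, χ γ = χ' γ) (hχ : LcIs s n χ a) : LcIs s n χ' a := by
  obtain ⟨β, hβ, hres⟩ := hχ
  exact ⟨β, kumGE_congr s h hβ, hres⟩

theorem LcIs.goodAt {s : SSStruct p ρbar} {n : ℕ} {χ : GK → ZMod p} {a : Kres p}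
    (h : LcIs s n χ a) : GoodAt s n χ := by
  obtain ⟨β, hβ, -⟩ := h
  exact ⟨β, hβ⟩

/-- The character `γ ↦ l (x · c_ij(γ))`. -/
noncomputable def chiX (s : SSStruct p ρbar) (l : k →+ ZMod p) (c : GK → Module.End k ρbar.V) (i j : Fin 2)
    (x : k) : GK → ZMod p :=
  fun γ => l (x * ent s c i j γ)

theorem goodCoc_chiX {s : SSStruct p ρbar} {c : GK → Module.End k ρbar.V} (hc : GoodCoc s c)
    (l : k →+ ZMod p) (i j : Fin 2) (x : k) : GoodAt s (p ^ 2 + 1) (chiX s l c i j x) :=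
  hc i j (l.comp (AddMonoidHom.mulLeft x))

theorem ent_add (s : SSStruct p ρbar) (c c' : GK → Module.End k ρbar.V) (i j : Fin 2) (γ : GK) :
    ent s (fun σ => c σ + c' σ) i j γ = ent s c i j γ + ent s c' i j γ := by
  simp [ent]

theorem ent_neg (s : SSStruct p ρbar) (c : GK → Module.End k ρbar.V) (i j : Fin 2) (γ : GK) :
    ent s (fun σ => -c σ) i j γ = -ent s c i j γ := by
  simp [ent]

theorem ent_zero (s : SSStruct p ρbar) (i j : Fin 2) (γ : GK) :
    ent s (fun _ => (0 : Module.End k ρbar.V)) i j γ = 0 := by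
  simp [ent]

omit [Fact p.Prime] in
theorem one_le_level : 0 < p ^ 2 + 1 := Nat.succ_pos _

theorem level_le : p ^ 2 + 1 ≤ p ^ 2 + p :=
  Nat.add_le_add_left (Fact.out : p.Prime).one_lt.le _

/-! ### GRP -/

theorem goodGrpProp (h0 : LevZeroProp p) (hneg : LevNegProp p) (hex : LevExistsProp p)
    (hadd : LevAddProp p) : GoodGrpProp p := by
  intro k _ _ ρbar s hp2 _
  refine ⟨?_, ?_, ?_⟩
  · intro i j l
    have h := LcIs.goodAt (h0 k ρbar s hp2 (p ^ 2 + 1))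
    refine goodAt_congr s (fun γ _ => ?_) h
    rw [ent_zero, map_zero]
  · intro c c' hc hc' i j l
    obtain ⟨a, ha⟩ := hex k ρbar s hp2 _ _ one_le_level level_le (hc i j l)
    obtain ⟨a', ha'⟩ := hex k ρbar s hp2 _ _ one_le_level level_le (hc' i j l)
    have h := LcIs.goodAt (hadd k ρbar s hp2 _ _ _ _ _ one_le_level ha ha')
    refine goodAt_congr s (fun γ _ => ?_) h
    rw [ent_add, map_add]
  · intro c hc i j l
    have h := hneg k ρbar s hp2 _ _ one_le_level (hc i j l)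
    refine goodAt_congr s (fun γ _ => ?_) h
    rw [ent_neg, map_neg]

/-! ### Machinery -/

omit [Fact p.Prime] in
theorem hpk_of_det (hdet : DetCyc p ρbar) : (p : k) = 0 := by
  have h1 := hdet.1
  rw [IsLocalRing.mem_maximalIdeal, mem_nonunits_iff, isUnit_iff_ne_zero, not_not] at h1
  exact h1

/-- The cyclotomic character of `σ`, as a natural number. -/
noncomputable def cycN (p : ℕ) [Fact p.Prime] (σ : GK) : ℕ :=
  ((cycloChar p σ : (ZMod p)ˣ) : ZMod p).val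

theorem cycN_cast_zmod (σ : GK) : ((cycN p σ : ℕ) : ZMod p) = ((cycloChar p σ : (ZMod p)ˣ) : ZMod p) := by
  have : NeZero p := ⟨(Fact.out : p.Prime).ne_zero⟩
  rw [cycN, ZMod.natCast_val, ZMod.cast_id]

/-- `det ρbar σ` is the cyclotomic character. -/
theorem det_eq_cycN (hdet : DetCyc p ρbar) (σ : GK) :
    LinearMap.det (ρbar.ρ σ) = ((cycN p σ : ℕ) : k) := by
  have h := hdet.2 1 σ (cycN p σ) (fun μ hμ => by
    rw [pow_one] at hμ
    exact cycloc_apply_root p σ μ hμ)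
  have h0 : (((p ^ 1 : ℕ) : ℕ) : k) = 0 := by
    rw [pow_one]; exact hpk_of_det hdet
  rw [h0] at h
  have h2 : (Ideal.span {(0 : k)} : Ideal k) = ⊥ := by simp
  rw [h2, Ideal.mem_bot, sub_eq_zero] at h
  exact h

theorem cycN_cast_ne_zero (hdet : DetCyc p ρbar) (σ : GK) : ((cycN p σ : ℕ) : k) ≠ 0 := by
  rw [← det_eq_cycN hdet σ]
  intro h0
  have h1 : LinearMap.det (ρbar.ρ σ * ρbar.ρ σ⁻¹) = 1 := by
    rw [← map_mul, mul_inv_cancel, map_one, map_one]
  rw [map_mul, h0, zero_mul] at h1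
  exact zero_ne_one h1

/-- `cyc(σ) · l(y) = l(cyc(σ) y)`. -/
theorem cyc_mul_apply (l : k →+ ZMod p) (σ : GK) (y : k) :
    ((cycloChar p σ : (ZMod p)ˣ) : ZMod p) * l y = l (((cycN p σ : ℕ) : k) * y) := by
  rw [← cycN_cast_zmod, ← nsmul_eq_mul, ← map_nsmul, nsmul_eq_mul]

theorem det_rho_tau (s : SSStruct p ρbar) : LinearMap.det (ρbar.ρ s.τ) = s.ψ s.τ ^ (p + 1) := by
  rw [← LinearMap.det_toMatrix s.b]
  have h := mat_rho s s.τ_mem
  rw [mat] at h
  rw [h, Matrix.det_diagonal, Fin.prod_univ_two]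
  simp [dg, pow_succ, mul_comm]

/-- The general equivariance step. -/
theorem lcIs_equiv (hconj : LevConjProp p) [Finite k] (s : SSStruct p ρbar) (hp2 : p ≠ 2)
    (c : GK → Module.End k ρbar.V) (l : k →+ ZMod p) (i j : Fin 2)
    {σ : GK} (hσ : σ ∈ Dp p) (q : ℕ) (e : Kres p)
    (hq : ∀ x ∈ Pp p, σ x - x ^ q ∈ (Pp p).nonunits) (he : IsRes (σ s.ϖ / s.ϖ) e) (t0 : k)
    (ht0 : ∀ γ ∈ I1 s, ((cycN p σ : ℕ) : k) * ent s c i j (σ⁻¹ * γ * σ) = t0 * ent s c i j γ)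
    (n : ℕ) (x : k) (a : Kres p) (h : LcIs s n (chiX s l c i j x) a) :
    LcIs s n (chiX s l c i j (t0 * x)) (e ^ n * a ^ q) := by
  have h1 := hconj k ρbar s hp2 σ hσ q e hq he n _ a h
  refine lcIs_congr s (fun γ hγ => ?_) h1
  show ((cycloChar p σ : (ZMod p)ˣ) : ZMod p) * l (x * ent s c i j (σ⁻¹ * γ * σ)) =
    l (t0 * x * ent s c i j γ)
  rw [cyc_mul_apply]
  congr 1
  have := ht0 γ hγ
  calc ((cycN p σ : ℕ) : k) * (x * ent s c i j (σ⁻¹ * γ * σ))
      = x * (((cycN p σ : ℕ) : k) * ent s c i j (σ⁻¹ * γ * σ)) := by ring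
    _ = x * (t0 * ent s c i j γ) := by rw [this]
    _ = t0 * x * ent s c i j γ := by ring

/-- Conjugation by `τ⁻¹` on the entries. -/
theorem ent_conj_tau (s : SSStruct p ρbar) (d : ↥(Z1 levelsAll (ad0 ρbar))) (i j : Fin 2)
    {γ : GK} (hγ : γ ∈ I1 s) :
    ent s (cE d) i j (s.τ⁻¹ * γ * s.τ) = (dg s s.τ i)⁻¹ * ent s (cE d) i j γ * dg s s.τ j := by
  have h := ent_conj_inertia s d (Subgroup.inv_mem _ s.τ_mem) hγ i j
  rw [inv_inv, dg_inv s s.τ_mem, dg_inv s s.τ_mem, inv_inv] at h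
  exact h

theorem inertia_frobLike {σ : GK} (hσ : σ ∈ Ip p) :
    ∀ x ∈ Pp p, σ x - x ^ 1 ∈ (Pp p).nonunits := by
  intro x hx
  rw [pow_one]
  exact Fermat.Agent.Cyclo.inertia_sub_mem_nonunits (A := Pp p) hσ hx

theorem Ip_le_Dp {σ : GK} (hσ : σ ∈ Ip p) : σ ∈ Dp p := by
  obtain ⟨d, -, rfl⟩ := hσ
  exact d.2

/-- Additive maps to `ℤ/p` separate the points of `k`. -/
theorem exists_addHom_ne (hpk : (p : k) = 0) {y : k} (hy : y ≠ 0) : ∃ l : k →+ ZMod p, l y ≠ 0 := by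
  haveI : CharP k p := (CharP.charP_iff_prime_eq_zero (Fact.out : p.Prime)).2 hpk
  letI : Algebra (ZMod p) k := ZMod.algebra k p
  obtain ⟨f, hf⟩ := Module.Projective.exists_dual_ne_zero (ZMod p) hy
  exact ⟨f.toAddMonoidHom, hf⟩

/-- The leading coefficient relation of a family at a level where all its members are good. -/
theorem isAddRel_level (hex : LevExistsProp p) (huniq : LevUniqueProp p) (hadd : LevAddProp p)
    [Finite k] (s : SSStruct p ρbar) (hp2 : p ≠ 2) (hdet : DetCyc p ρbar)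
    (c : GK → Module.End k ρbar.V) (l : k →+ ZMod p) (i j : Fin 2) (n : ℕ)
    (hn1 : p ^ 2 + 1 ≤ n) (hn2 : n < p ^ 2 + p)
    (hG : ∀ x, GoodAt s n (chiX s l c i j x)) :
    IsAddRel (fun (x : k) (a : Kres p) => LcIs s n (chiX s l c i j x) a) where
  tot := fun x => hex k ρbar s hp2 n _ (lt_of_lt_of_le one_le_level hn1) hn2.le (hG x)
  uniq := fun x a a' h h' => huniq k ρbar s hp2 hdet n _ a a' hn1 hn2 h h'
  add := fun x y a b h h' => by
    have h1 := hadd k ρbar s hp2 n _ _ a b (lt_of_lt_of_le one_le_level hn1) h h'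
    refine lcIs_congr s (fun γ _ => ?_) h1
    show l (x * ent s c i j γ) + l (y * ent s c i j γ) = l ((x + y) * ent s c i j γ)
    rw [add_mul, map_add]

/-! ### DIAG -/

theorem diagProp (hex : LevExistsProp p) (huniq : LevUniqueProp p) (hadd : LevAddProp p)
    (hnext : LevNextProp p) (htop : LevTopProp p) (hconj : LevConjProp p) (htame : TameProp p) :
    DiagProp p := by
  intro k _ _ ρbar s hp2 hdet c hc γ hγ
  by_contra hne
  obtain ⟨l, hl⟩ := exists_addHom_ne (hpk_of_det hdet) hne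
  obtain ⟨lam, hlam, hlamN, hcyc, -⟩ := htame k ρbar s hp2 hdet
  have hlam0 : lam ≠ 0 := by
    intro h0
    rw [h0, zero_pow] at hlamN
    · exact zero_ne_one hlamN
    · have := (Fact.out : p.Prime).two_le
      have : 4 ≤ p ^ 2 := by nlinarith
      omega
  have key : ∀ n, p ^ 2 + 1 ≤ n → n ≤ p ^ 2 + p → ∀ x, GoodAt s n (chiX s l (cE c) 0 0 x) := by
    intro n hn1 hn2
    refine fam_induction (κ := Kres p) (fun n x => GoodAt s n (chiX s l (cE c) 0 0 x))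
      (fun n x a => LcIs s n (chiX s l (cE c) 0 0 x) a) (p ^ 2 + 1) (p ^ 2 + p)
      (fun x => goodCoc_chiX hc l 0 0 x)
      (fun n x h1 h2 h => hnext k ρbar s hp2 hdet n _ h1 h2 h) ?_ n hn1 hn2
    intro n h1 h2 hG x
    refine fam_vanish (isAddRel_level hex huniq hadd s hp2 hdet (cE c) l 0 0 n h1 h2 hG)
      (fun x => ((cycN p s.τ : ℕ) : k) * x) (lam ^ n) (cycN p s.τ : ℤ) 0 ?_ ?_ ?_ x
    · intro x a ha
      have h := lcIs_equiv hconj s hp2 (cE c) l 0 0 (Ip_le_Dp s.τ_mem) 1 lam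
        (inertia_frobLike s.τ_mem) hlam ((cycN p s.τ : ℕ) : k) (fun γ hγ => by
          rw [ent_conj_tau s c 0 0 hγ]
          have h0 := dg_ne_zero s s.τ_mem 0
          field_simp) n x a ha
      rwa [pow_one] at h
    · intro x
      simp only [zero_smul, add_zero, zsmul_eq_mul, Int.cast_natCast]
    · have hz : lam ^ n ≠ 0 := pow_ne_zero _ hlam0
      have hz2 := hcyc n h1 h2
      have : (lam ^ n) ^ 2 - ((cycN p s.τ : ℤ) : Kres p) * lam ^ n + ((0 : ℤ) : Kres p) =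
          lam ^ n * (lam ^ n - ((cycN p s.τ : ℕ) : Kres p)) := by
        push_cast; ring
      rw [this]
      refine mul_ne_zero hz (sub_ne_zero.2 (Ne.symm ?_))
      exact hz2
  have h := htop k ρbar s hp2 hdet _ (key (p ^ 2 + p) level_le le_rfl 1) γ hγ
  apply hl
  have h' : l (1 * ent s (cE c) 0 0 γ) = 0 := h
  rwa [one_mul] at h'

end Fermat.Agent.S56.SS.KNFam
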