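/-
S56, WALL W4, CASE C, BLOCK KN, leaf GEN (helper51): `fieldGenProp : FieldGenProp p`.

`F = 𝔽_p(ν)` has `p²` elements (every element is fixed by `x ↦ x^(p²)`, the unit group is cyclic,
and `ν^p ≠ ν`); `F` is the ring generated by `ν`, so the additive group generated by the
`ν^n x_j`, `x` a basis of `k` over `F`, is all of `k`.
-/
import Fermat.Agent.S56.W4.C.KN.Defs

set_option autoImplicit false

namespace Fermat.Agent.S56.SS.KNGen

open Module

section
variable (p : ℕ) [Fact p.Prime] (k : Type) [Field k] [CharP k p] [Algebra (ZMod p) k]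

/-- every element of `𝔽_p(ν)` is fixed by `x ↦ x^(p²)` when `ν` is. -/
theorem pow_sq_eq_of_mem {ν : k} (hν2 : ν ^ (p ^ 2) = ν) {a : k}
    (ha : a ∈ IntermediateField.adjoin (ZMod p) {ν}) : a ^ (p ^ 2) = a := by
  induction ha using IntermediateField.adjoin_induction with
  | mem x hx =>
    rw [Set.mem_singleton_iff] at hx
    rw [hx, hν2]
  | algebraMap c =>
    rw [← map_pow, pow_two, pow_mul, ZMod.pow_card, ZMod.pow_card]
  | add x y _ _ hx hy => rw [add_pow_char_pow, hx, hy]
  | inv x _ hx => rw [inv_pow, hx]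
  | mul x y _ _ hx hy => rw [mul_pow, hx, hy]

variable [Finite k]

theorem card_adjoin {ν : k} (hν2 : ν ^ (p ^ 2) = ν) (hν1 : ν ^ p ≠ ν) :
    Nat.card (IntermediateField.adjoin (ZMod p) {ν}) = p ^ 2 := by
  set F := IntermediateField.adjoin (ZMod p) {ν} with hF
  have hp : p.Prime := Fact.out
  have hνF : ν ∈ F := IntermediateField.subset_adjoin _ _ (Set.mem_singleton ν)
  have hcard : Nat.card F = p ^ finrank (ZMod p) F := by
    rw [Module.natCard_eq_pow_finrank (K := ZMod p) (V := F), Nat.card_zmod]
  have hpos : 0 < finrank (ZMod p) F := Module.finrank_pos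
  -- upper bound
  have hle : finrank (ZMod p) F ≤ 2 := by
    obtain ⟨g, hg⟩ := IsCyclic.exists_generator (α := Fˣ)
    have h1 : orderOf g = Nat.card Fˣ := orderOf_eq_card_of_forall_mem_zpowers hg
    have h2 : Nat.card Fˣ = Nat.card F - 1 := Nat.card_units F
    have h3 : g ^ (p ^ 2 - 1) = 1 := by
      have h4 : ((g : F) : k) ^ (p ^ 2) = ((g : F) : k) := pow_sq_eq_of_mem p k hν2 (g : F).2
      have h5 : ((g : F) : k) ≠ 0 := by
        intro h0
        exact g.ne_zero (Subtype.ext h0)
      have hp2 : 1 ≤ p ^ 2 := Nat.one_le_pow _ _ hp.pos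
      have h6 : ((g : F) : k) ^ (p ^ 2 - 1) = 1 := by
        apply mul_left_cancel₀ h5
        rw [← pow_succ', Nat.sub_add_cancel hp2, h4, mul_one]
      ext
      push_cast
      exact h6
    have h7 : orderOf g ∣ p ^ 2 - 1 := orderOf_dvd_of_pow_eq_one h3
    rw [h1, h2, hcard] at h7
    have hp2 : 1 < p ^ 2 := Nat.one_lt_pow (by norm_num) hp.one_lt
    have h8 : p ^ finrank (ZMod p) F - 1 ≤ p ^ 2 - 1 := Nat.le_of_dvd (by omega) h7
    have h9 : p ^ finrank (ZMod p) F ≤ p ^ 2 := by omega
    exact (Nat.pow_le_pow_iff_right hp.one_lt).1 h9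
  -- lower bound
  have hne : finrank (ZMod p) F ≠ 1 := by
    intro h1
    rw [h1, pow_one] at hcard
    let _ : Fintype F := Fintype.ofFinite F
    have h2 : Fintype.card F = p := by rw [← Nat.card_eq_fintype_card, hcard]
    have h3 := FiniteField.pow_card (⟨ν, hνF⟩ : F)
    rw [h2] at h3
    exact hν1 (congrArg Subtype.val h3)
  have : finrank (ZMod p) F = 2 := by omega
  rw [hcard, this]

end

theorem fieldGen_core (p : ℕ) [Fact p.Prime] (k : Type) [Field k] [Finite k] (hp : (p : k) = 0)
    (ν : k) (hν2 : ν ^ (p ^ 2) = ν) (hν1 : ν ^ p ≠ ν) :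
    ∃ (g : ℕ) (x : Fin g → k),
      AddSubgroup.closure {y : k | ∃ (n : ℕ) (j : Fin g), y = ν ^ n * x j} = ⊤ ∧
      (p ^ 2) ^ g = Nat.card k := by
  have : CharP k p := (CharP.charP_iff_prime_eq_zero Fact.out).2 hp
  let _ : Algebra (ZMod p) k := ZMod.algebra k p
  set F := IntermediateField.adjoin (ZMod p) {ν} with hF
  let b := Module.finBasis F k
  refine ⟨finrank F k, fun j => b j, ?_, ?_⟩
  · set M := AddSubgroup.closure {y : k | ∃ (n : ℕ) (j : Fin (finrank F k)), y = ν ^ n * b j}
      with hM
    have hmulν : ∀ m ∈ M, ν * m ∈ M := by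
      intro m hm
      induction hm using AddSubgroup.closure_induction with
      | mem x hx =>
        obtain ⟨n, j, rfl⟩ := hx
        exact AddSubgroup.subset_closure ⟨n + 1, j, by rw [pow_succ']; ring⟩
      | zero => rw [mul_zero]; exact zero_mem _
      | add x y _ _ hx hy => rw [mul_add]; exact add_mem hx hy
      | neg x _ hx => rw [mul_neg]; exact neg_mem hx
    have hFM : ∀ a ∈ F, ∀ m ∈ M, a * m ∈ M := by
      intro a ha
      have halg : IsAlgebraic (ZMod p) ν := Algebra.IsAlgebraic.isAlgebraic ν
      have ha' : a ∈ Algebra.adjoin (ZMod p) {ν} := by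
        rw [← IntermediateField.adjoin_simple_toSubalgebra_of_isAlgebraic halg]
        exact ha
      induction ha' using Algebra.adjoin_induction with
      | mem x hx =>
        rw [Set.mem_singleton_iff] at hx
        rw [hx]
        exact hmulν
      | algebraMap c =>
        intro m hm
        have h1 : algebraMap (ZMod p) k c = ((c.val : ℕ) : k) := by
          conv_lhs => rw [← ZMod.natCast_zmod_val c]
          rw [map_natCast]
        rw [h1, ← nsmul_eq_mul]
        exact nsmul_mem hm _
      | add x y _ _ hx hy =>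
        intro m hm
        rw [add_mul]
        exact add_mem (hx (by
          rw [← IntermediateField.adjoin_simple_toSubalgebra_of_isAlgebraic halg] at *
          assumption) m hm) (hy (by
          rw [← IntermediateField.adjoin_simple_toSubalgebra_of_isAlgebraic halg] at *
          assumption) m hm)
      | mul x y _ _ hx hy =>
        intro m hm
        rw [mul_assoc]
        exact hx (by
          rw [← IntermediateField.adjoin_simple_toSubalgebra_of_isAlgebraic halg] at *
          assumption) _ (hy (by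
          rw [← IntermediateField.adjoin_simple_toSubalgebra_of_isAlgebraic halg] at *
          assumption) m hm)
    rw [eq_top_iff]
    intro y _
    rw [← b.sum_repr y]
    refine sum_mem fun j _ => ?_
    have h1 : (b.repr y j) • b j = ((b.repr y j : F) : k) * b j := rfl
    rw [h1]
    exact hFM _ (b.repr y j).2 _ (AddSubgroup.subset_closure ⟨0, j, by rw [pow_zero, one_mul]⟩)
  · rw [← card_adjoin p k hν2 hν1, ← Module.natCard_eq_pow_finrank]

end Fermat.Agent.S56.SS.KNGen

namespace Fermat.Agent.S56.SS

/-- **GEN** -/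
theorem fieldGenProp (p : ℕ) [Fact p.Prime] : FieldGenProp p := by
  intro k _ _ hp ν hν2 hν1
  exact KNGen.fieldGen_core p k hp ν hν2 hν1

end Fermat.Agent.S56.SS
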