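/-
S56, W4-C, block KN (helper73): `KeyProp` from the leaves LEV-A/B/C, TAME, GEN and `KN/Coh.lean`.
-/
import Fermat.Agent.S56.W4.C.KN.Fam
import Fermat.Agent.S56.W3.TW.Gen

set_option autoImplicit false

namespace Fermat.Agent.S56.SS.KNFam

open Fermat.Agent.F4 ExtCitation Fermat.Agent.FFL Fermat.Agent.FlatMod Fermat.Agent.S56.SO
open Fermat.Agent.S56.SS.KNCoh Fermat.Agent.FFL.FB

local notation "Kb" => AlgebraicClosure ℚ
local notation "GK" => (AlgebraicClosure ℚ ≃ₐ[ℚ] AlgebraicClosure ℚ)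

variable {p : ℕ} [Fact p.Prime] {k : Type} [Field k] {ρbar : ResidualGaloisRep k}

/-- Frobenius² acts trivially on the entry `(0,1)` of a cocycle on `I₁`. -/
theorem ent_conj_frob2' (s : SSStruct p ρbar) {φ : GK} (hφ : (Pp p).IsFrobeniusAt φ p)
    (d : ↥(Z1 levelsAll (ad0 ρbar))) {γ : GK} (hγ : γ ∈ I1 s) :
    ent s (cE d) 0 1 ((φ * φ)⁻¹ * γ * (φ * φ)) = ent s (cE d) 0 1 γ := by
  have hφD : φ ∈ Dp p := hφ.mem_decompositionSubgroup
  have hΦD : (φ * φ)⁻¹ ∈ Dp p := Subgroup.inv_mem _ (Subgroup.mul_mem _ hφD hφD)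
  have hγ' : (φ * φ)⁻¹ * γ * (φ * φ) ∈ I1 s := by
    have := conj_mem_I1 s hΦD hγ
    rwa [inv_inv] at this
  set γ' := (φ * φ)⁻¹ * γ * (φ * φ) with hγ'def
  have hγeq : γ = (φ * φ) * γ' * (φ * φ)⁻¹ := by
    rw [hγ'def]; group
  have h1 : (d : GQ → ad0 ρbar) γ =
      (ad0 ρbar).ρ φ ((ad0 ρbar).ρ φ ((d : GQ → ad0 ρbar) γ')) := by
    conv_lhs => rw [hγeq]
    rw [coc_conj s d (φ * φ) hγ', map_mul, Module.End.mul_apply]
  obtain ⟨hF01, hF10, -, -, -, hA⟩ := mat_act_frob s hφ ((d : GQ → ad0 ρbar) γ')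
  obtain ⟨-, -, -, -, hB, -⟩ := mat_act_frob s hφ ((ad0 ρbar).ρ φ ((d : GQ → ad0 ρbar) γ'))
  rw [← h1] at hB
  have e1 : ent s (cE d) 0 1 γ = mat s.b (toEnd ρbar ((d : GQ → ad0 ρbar) γ)) 0 1 :=
    (mat_apply _ _ _ _).symm
  have e2 : ent s (cE d) 0 1 γ' = mat s.b (toEnd ρbar ((d : GQ → ad0 ρbar) γ')) 0 1 :=
    (mat_apply _ _ _ _).symm
  rw [e1, e2]
  have h2 : mat s.b (toEnd ρbar ((d : GQ → ad0 ρbar) γ)) 0 1 * (mat s.b (ρbar.ρ φ) 1 0 *
      mat s.b (ρbar.ρ φ) 0 1) = mat s.b (toEnd ρbar ((d : GQ → ad0 ρbar) γ')) 0 1 *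
      (mat s.b (ρbar.ρ φ) 1 0 * mat s.b (ρbar.ρ φ) 0 1) := by
    linear_combination (mat s.b (ρbar.ρ φ) 0 1) * hB + (mat s.b (ρbar.ρ φ) 0 1) * hA
  exact (mul_right_cancel₀ (mul_ne_zero hF10 hF01) h2).symm

/-- `σ ϖ / ϖ` is integral for `σ` in the decomposition group. -/
theorem exists_isRes_conj' (s : SSStruct p ρbar) {σ : GK} (hσ : σ ∈ Dp p) :
    ∃ e : Kres p, IsRes (σ s.ϖ / s.ϖ) e := by
  have hp0 : (p : Kb) ≠ 0 := by
    exact_mod_cast (Fact.out : p.Prime).ne_zero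
  have hϖ0 : s.ϖ ≠ 0 := s.ϖ_le.1
  have hN : p ^ 2 - 1 ≠ 0 := by
    have := (Fact.out : p.Prime).two_le
    have : 4 ≤ p ^ 2 := by nlinarith
    omega
  have h1 : s.ϖ ^ (p ^ 2 - 1) / (p : Kb) ^ 1 ∈ Pp p := s.ϖ_ge
  have h2 : (p : Kb) ^ 1 / s.ϖ ^ (p ^ 2 - 1) ∈ Pp p := s.ϖ_le.2
  have h3 : σ (s.ϖ ^ (p ^ 2 - 1) / (p : Kb) ^ 1) ∈ Pp p :=
    Fermat.Agent.S56.TWGen.apply_mem (Pp p) hσ h1
  have h4 : (σ s.ϖ / s.ϖ) ^ (p ^ 2 - 1) =
      σ (s.ϖ ^ (p ^ 2 - 1) / (p : Kb) ^ 1) * ((p : Kb) ^ 1 / s.ϖ ^ (p ^ 2 - 1)) := by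
    rw [map_div₀, map_pow, map_pow, map_natCast, div_pow]
    field_simp
  have h5 : (σ s.ϖ / s.ϖ) ^ (p ^ 2 - 1) ∈ Pp p := by
    rw [h4]; exact (Pp p).mul_mem _ _ h3 h2
  have h6 : σ s.ϖ / s.ϖ ∈ Pp p := by
    rw [← (Pp p).valuation_le_one_iff] at h5 ⊢
    rw [map_pow] at h5
    by_contra hlt
    rw [not_le] at hlt
    exact absurd h5 (not_le.2 (one_lt_pow₀ hlt hN))
  exact ⟨_, h6, rfl⟩

/-- The residue field has characteristic `p`. -/
theorem kres_charP' (p : ℕ) [Fact p.Prime] : CharP (Kres p) p := by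
  refine (CharP.charP_iff_prime_eq_zero (Fact.out : p.Prime)).2 ?_
  have h1 : (p : Kb) ∈ (Pp p).nonunits := so_liesOver p
  obtain ⟨hp, hmem⟩ := ((Pp p).mem_nonunits_iff_exists_mem_maximalIdeal).1 h1
  have h2 : IsLocalRing.residue ↥(Pp p) ⟨(p : Kb), hp⟩ = 0 :=
    (IsLocalRing.residue_eq_zero_iff _).2 hmem
  have h3 : (⟨(p : Kb), hp⟩ : ↥(Pp p)) = ((p : ℕ) : ↥(Pp p)) := by
    apply Subtype.ext; simp
  rw [h3, map_natCast] at h2
  exact h2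

/-! ### KEY -/

theorem keyProp (h0 : LevZeroProp p) (hneg : LevNegProp p) (hex : LevExistsProp p)
    (huniq : LevUniqueProp p) (hadd : LevAddProp p) (hnext : LevNextProp p)
    (htop : LevTopProp p) (hconj : LevConjProp p) (htame : TameProp p)
    (hgen : FieldGenProp p) : KeyProp p := by
  intro k _ _ ρbar s hp2 hdet
  classical
  have hpk := hpk_of_det hdet
  have : CharP (Kres p) p := kres_charP' p
  have hp := (Fact.out : p.Prime)
  have hp2le := hp.two_le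
  have hp4 : 4 ≤ p ^ 2 := by nlinarith
  obtain ⟨l1, hl1⟩ := exists_addHom_ne (p := p) hpk (one_ne_zero : (1 : k) ≠ 0)
  obtain ⟨lam, hlam, hlamN, -, t', n', hrel0, hne0⟩ := htame k ρbar s hp2 hdet
  obtain ⟨φ, hφ⟩ := Fermat.Agent.S56.TWGen.exists_isFrobeniusAt (Pp p) p hp (so_liesOver p)
  have hφD : φ ∈ Dp p := hφ.mem_decompositionSubgroup
  have hΦD : φ * φ ∈ Dp p := Subgroup.mul_mem _ hφD hφD
  obtain ⟨eΦ, heΦ⟩ := exists_isRes_conj' s hΦD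
  have hΦq : ∀ x ∈ Pp p, (φ * φ) x - x ^ (p ^ 2) ∈ (Pp p).nonunits := by
    intro x hx
    have := Fermat.Agent.S56.TWGen.frob_pow_sub_pow_mem (Pp p) φ p hφ 2 hx
    rwa [pow_two] at this
  have hβ0 : ((cycN p (φ * φ) : ℕ) : k) ≠ 0 := cycN_cast_ne_zero hdet _
  have hlamp : lam ^ (p ^ 2) = lam := by
    have e : p ^ 2 = (p ^ 2 - 1) + 1 := by omega
    rw [e, pow_succ, hlamN, one_mul]
  have hz : (lam ^ (p ^ 2 + 1)) ^ (p ^ 2) = lam ^ (p ^ 2 + 1) := by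
    rw [← pow_mul, mul_comm, pow_mul, hlamp]
  have hψ0 : s.ψ s.τ ≠ 0 := s.ne_zero
  have hν1 : (s.ψ s.τ ^ (2 * p)) ^ (p ^ 2) = s.ψ s.τ ^ (2 * p) := by
    rw [← pow_mul, mul_comm, pow_mul, s.fp2 s.τ s.τ_mem]
  have hν2 : (s.ψ s.τ ^ (2 * p)) ^ p ≠ s.ψ s.τ ^ (2 * p) := by
    intro h
    have h1 : s.ψ s.τ ^ (2 * p * p) = s.ψ s.τ ^ (2 * p) := by rw [pow_mul]; exact h
    have h2 : s.ψ s.τ ^ (2 * p * p) = s.ψ s.τ ^ 2 := by
      have e : 2 * p * p = p ^ 2 * 2 := by ring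
      rw [e, pow_mul, s.fp2 s.τ s.τ_mem]
    rw [h2] at h1
    have e : 2 * p = 2 + (2 * p - 2) := by omega
    rw [e, pow_add] at h1
    have h3 : s.ψ s.τ ^ (2 * p - 2) = 1 := by
      have h4 : s.ψ s.τ ^ 2 * 1 = s.ψ s.τ ^ 2 * s.ψ s.τ ^ (2 * p - 2) := by rw [mul_one]; exact h1
      exact (mul_left_cancel₀ (pow_ne_zero 2 hψ0) h4).symm
    have h5 := s.ord (2 * p - 2) (by omega) h3
    have h6 : 2 * p ≤ p ^ 2 := by nlinarith
    have h7 : p ^ 2 + 1 ≤ 2 * p := by omega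
    nlinarith
  obtain ⟨g, x, hgenx, hcard⟩ := hgen k hpk _ hν1 hν2
  obtain ⟨hSfin, hScard⟩ := countCore_ncard_le p 2 (by norm_num) (s.ψ s.τ ^ (2 * p))
    ((cycN p (φ * φ) : ℕ) : k) hβ0 (lam ^ (p ^ 2 + 1)) (eΦ ^ (p ^ 2 + 1)) hz x hgenx
  have hlev : p ^ 2 + 1 < p ^ 2 + p := by have := hp.one_lt; omega
  have hR : ∀ c : ↥(Z1 levelsAll (ad0 ρbar)), GoodCoc s (cE c) →
      IsAddRel (fun (x : k) (a : Kres p) => LcIs s (p ^ 2 + 1) (chiX s l1 (cE c) 0 1 x) a) :=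
    fun c hc => isAddRel_level hex huniq hadd s hp2 hdet (cE c) l1 0 1 (p ^ 2 + 1) le_rfl hlev
      (goodCoc_chiX hc l1 0 1)
  -- equivariance for `τ`
  have hτ : ∀ (c : ↥(Z1 levelsAll (ad0 ρbar))) (n : ℕ) (x : k) (a : Kres p),
      LcIs s n (chiX s l1 (cE c) 0 1 x) a →
      LcIs s n (chiX s l1 (cE c) 0 1 (s.ψ s.τ ^ (2 * p) * x)) (lam ^ n * a) := by
    intro c n x a ha
    have h := lcIs_equiv hconj s hp2 (cE c) l1 0 1 (Ip_le_Dp s.τ_mem) 1 lam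
      (inertia_frobLike s.τ_mem) hlam (s.ψ s.τ ^ (2 * p)) (fun γ hγ => by
        rw [ent_conj_tau s c 0 1 hγ, ← det_eq_cycN hdet, det_rho_tau]
        have e0 : dg s s.τ 0 = s.ψ s.τ := rfl
        have e1 : dg s s.τ 1 = s.ψ s.τ ^ p := rfl
        rw [e0, e1]
        field_simp
        ring) n x a ha
    rwa [pow_one] at h
  -- equivariance for `φ²`
  have hΦ : ∀ (c : ↥(Z1 levelsAll (ad0 ρbar))) (n : ℕ) (x : k) (a : Kres p),
      LcIs s n (chiX s l1 (cE c) 0 1 x) a →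
      LcIs s n (chiX s l1 (cE c) 0 1 (((cycN p (φ * φ) : ℕ) : k) * x))
        (eΦ ^ n * a ^ (p ^ 2)) := by
    intro c n x a ha
    exact lcIs_equiv hconj s hp2 (cE c) l1 0 1 hΦD (p ^ 2) eΦ hΦq heΦ _
      (fun γ hγ => by rw [ent_conj_frob2' s hφ c hγ]) n x a ha
  refine ⟨semiSol (s.ψ s.τ ^ (2 * p)) ((cycN p (φ * φ) : ℕ) : k) (lam ^ (p ^ 2 + 1))
      (eΦ ^ (p ^ 2 + 1)) (p ^ 2),
    fun c => if hc : GoodCoc s (cE c) then famFun (hR c hc) else 0, hSfin, ?_, ?_, ?_⟩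
  · rw [← hcard]; exact hScard
  · intro c hc
    beta_reduce
    rw [dif_pos hc]
    refine ⟨fun x y => famFun_add _ x y, fun x => ?_, fun x => ?_⟩
    · exact famFun_eq _ (hτ c _ x _ (famFun_spec _ x))
    · exact famFun_eq _ (hΦ c _ x _ (famFun_spec _ x))
  · intro c c' hc hc' hK γ hγ
    beta_reduce at hK
    rw [dif_pos hc, dif_pos hc'] at hK
    obtain ⟨-, hgadd, hgneg⟩ := goodGrpProp h0 hneg hex hadd k ρbar s hp2 hdet
    have hdE : ∀ σ, cE (c - c') σ = cE c σ + -cE c' σ := fun σ => by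
      rw [← sub_eq_add_neg]; rfl
    have hdent : ∀ (i j : Fin 2) (γ : GK),
        ent s (cE (c - c')) i j γ = ent s (cE c) i j γ - ent s (cE c') i j γ := by
      intro i j γ
      have e : cE (c - c') = fun σ => cE c σ + (fun σ => -cE c' σ) σ := funext hdE
      rw [e, ent_add, ent_neg, sub_eq_add_neg]
    have hd : GoodCoc s (cE (c - c')) := by
      have e : cE (c - c') = fun σ => cE c σ + -cE c' σ := funext hdE
      rw [e]
      exact hgadd _ _ hc (hgneg _ hc')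
    -- at the base level all leading coefficients of `c - c'` vanish
    have hbase0 : ∀ x, LcIs s (p ^ 2 + 1) (chiX s l1 (cE (c - c')) 0 1 x) 0 := by
      intro x
      have ha : LcIs s (p ^ 2 + 1) (chiX s l1 (cE c) 0 1 x) (famFun (hR c' hc') x) := by
        rw [← hK]; exact famFun_spec (hR c hc) x
      have ha' := famFun_spec (hR c' hc') x
      have hgn : GoodAt s (p ^ 2 + 1) (fun γ => -chiX s l1 (cE c') 0 1 x γ) :=
        hneg k ρbar s hp2 _ _ one_le_level (LcIs.goodAt ha')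
      obtain ⟨b, hb⟩ := hex k ρbar s hp2 _ _ one_le_level level_le hgn
      have hsum := hadd k ρbar s hp2 _ _ _ _ b one_le_level ha' hb
      have hzero : LcIs s (p ^ 2 + 1) (fun _ => 0) (famFun (hR c' hc') x + b) :=
        lcIs_congr s (fun γ _ => by simp) hsum
      have hab : famFun (hR c' hc') x + b = 0 :=
        huniq k ρbar s hp2 hdet _ _ _ _ le_rfl hlev hzero (h0 k ρbar s hp2 _)
      have hsum2 := hadd k ρbar s hp2 _ _ _ _ b one_le_level ha hb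
      rw [hab] at hsum2
      refine lcIs_congr s (fun γ _ => ?_) hsum2
      show l1 (x * ent s (cE c) 0 1 γ) + -l1 (x * ent s (cE c') 0 1 γ) =
        l1 (x * ent s (cE (c - c')) 0 1 γ)
      rw [hdent, mul_sub, map_sub, sub_eq_add_neg]
    have key : ∀ n, p ^ 2 + 1 ≤ n → n ≤ p ^ 2 + p →
        ∀ x, GoodAt s n (chiX s l1 (cE (c - c')) 0 1 x) := by
      intro n hn1 hn2
      refine fam_induction (κ := Kres p)
        (fun n x => GoodAt s n (chiX s l1 (cE (c - c')) 0 1 x))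
        (fun n x a => LcIs s n (chiX s l1 (cE (c - c')) 0 1 x) a) (p ^ 2 + 1) (p ^ 2 + p)
        (fun x => goodCoc_chiX hd l1 0 1 x)
        (fun n x h1 h2 h => hnext k ρbar s hp2 hdet n _ h1 h2 h) ?_ n hn1 hn2
      intro n h1 h2 hG x
      rcases eq_or_lt_of_le h1 with h | h
      · rw [← h]; exact hbase0 x
      · refine fam_vanish (isAddRel_level hex huniq hadd s hp2 hdet (cE (c - c')) l1 0 1 n h1 h2 hG)
          (fun x => s.ψ s.τ ^ (2 * p) * x) (lam ^ n) t' n'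
          (fun x a ha => hτ (c - c') n x a ha) ?_ (hne0 n h h2) x
        intro x
        rw [zsmul_eq_mul, zsmul_eq_mul]
        linear_combination x * hrel0
    have htop' := fun x => htop k ρbar s hp2 hdet _ (key (p ^ 2 + p) level_le le_rfl x) γ hγ
    by_contra hne
    have hd0 : ent s (cE (c - c')) 0 1 γ ≠ 0 := by
      rw [hdent]; exact sub_ne_zero.2 hne
    apply hl1
    have h1 : l1 ((ent s (cE (c - c')) 0 1 γ)⁻¹ * ent s (cE (c - c')) 0 1 γ) = 0 :=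
      htop' (ent s (cE (c - c')) 0 1 γ)⁻¹
    rwa [inv_mul_cancel₀ hd0] at h1

end Fermat.Agent.S56.SS.KNFam
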