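/-
S56, W4 case C, block KN, seat LEV-A (helper83): valuation arithmetic of Kummer generators.
Proves the Props `LevZeroProp`, `LevNegProp`, `LevExistsProp`, `LevAddProp`, `LevConjProp` of
`KN/Defs.lean` (statements unchanged).
-/
import Fermat.Agent.S56.W4.C.KN.Defs
import Fermat.Agent.S56.W4.C.KN.Coh
import Fermat.Agent.S56.W4.C.KN.LevA.Val
import Fermat.Agent.S56.W3.SO.CycLoc
import Fermat.Agent.S56.W3.TW.Gen
import Fermat.Agent.Lib.FFL.Arith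

set_option autoImplicit false

namespace Fermat.Agent.S56.SS

open Fermat.Agent.F4 ExtCitation Fermat.Agent.FFL Fermat.Agent.FlatMod

local notation "Kb" => AlgebraicClosure ℚ
local notation "GK" => (AlgebraicClosure ℚ ≃ₐ[ℚ] AlgebraicClosure ℚ)

namespace LevA

variable {p : ℕ} [Fact p.Prime]

lemma p_ne_zero : (p : Kb) ≠ 0 := by
  exact_mod_cast (Fact.out : p.Prime).ne_zero

lemma p_mem_nonunits : (p : Kb) ∈ (Pp p).nonunits :=
  Fermat.Agent.S56.primeLocalPlace_liesOverPrime (pPrime p)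

lemma pN_ne_zero : p * (p ^ 2 - 1) ≠ 0 := by
  have hp := (Fact.out : p.Prime).two_le
  have : 4 ≤ p ^ 2 := by nlinarith
  have h1 : p ^ 2 - 1 ≠ 0 := by omega
  exact mul_ne_zero (by omega) h1

lemma valGE_iff (x : Kb) (a b : ℕ) : ValGE p (Pp p) x a b ↔ VGe (Pp p) (p : Kb) x a b := Iff.rfl

lemma isRes_iff (x : Kb) (a : Kres p) : IsRes x a ↔ ResIs (Pp p) x a := Iff.rfl

/-! ### Exponents modulo `p` -/

lemma zeta_pow_p : zetaP p ^ p = 1 := (zetaP_spec p).pow_eq_one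

lemma zeta_pow_val_add (c c' : ZMod p) :
    zetaP p ^ (c + c').val = zetaP p ^ c.val * zetaP p ^ c'.val := by
  have : NeZero p := ⟨(Fact.out : p.Prime).ne_zero⟩
  rw [ZMod.val_add, ← pow_add, ← pow_eq_pow_mod _ zeta_pow_p]

lemma zeta_pow_val_neg (c : ZMod p) : zetaP p ^ (-c).val * zetaP p ^ c.val = 1 := by
  have : NeZero p := ⟨(Fact.out : p.Prime).ne_zero⟩
  rw [← zeta_pow_val_add, neg_add_cancel, ZMod.val_zero, pow_zero]

lemma zeta_pow_val_mul (c c' : ZMod p) :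
    zetaP p ^ (c * c').val = (zetaP p ^ c.val) ^ c'.val := by
  have : NeZero p := ⟨(Fact.out : p.Prime).ne_zero⟩
  rw [ZMod.val_mul, ← pow_mul, ← pow_eq_pow_mod _ zeta_pow_p]

/-! ### Kummer generators -/

variable {k : Type} [Field k] {ρbar : ResidualGaloisRep k} (s : SSStruct p ρbar)

lemma kumGE_sub_one_mem {n : ℕ} (hn : 0 < n) {χ : GK → ZMod p} {β : Kb}
    (h : KumGE s n χ β) : β - 1 ∈ (Pp p).nonunits :=
  vge_mem_nonunits p_ne_zero p_mem_nonunits hn.ne' h.2.2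

lemma mem_of_sub_one {β : Kb} (h : β - 1 ∈ (Pp p).nonunits) :
    β ∈ Pp p ∧ β⁻¹ ∈ Pp p := by
  have := one_add_unit h
  rw [add_sub_cancel] at this
  exact ⟨this.1, this.2.1⟩

end LevA

open LevA

variable (p : ℕ) [Fact p.Prime]

/-- **L0**. -/
theorem levZeroProp : LevZeroProp p := by
  intro k _ _ ρbar s _ n
  refine ⟨1, ⟨one_ne_zero, fun γ _ => ?_, ?_⟩, ?_⟩
  · rw [map_one, ZMod.val_zero, pow_zero, one_mul]
  · rw [sub_self]
    exact vge_zero n pN_ne_zero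
  · rw [one_pow, sub_self, zero_div]
    exact resIs_zero

/-- **L0'**. -/
theorem levNegProp : LevNegProp p := by
  intro k _ _ ρbar s _ n χ hn ⟨β, hβ⟩
  have hm := kumGE_sub_one_mem s hn hβ
  obtain ⟨hβP, hβi⟩ := mem_of_sub_one hm
  refine ⟨β⁻¹, inv_ne_zero hβ.1, fun γ hγ => ?_, ?_⟩
  · rw [map_inv₀, hβ.2.1 γ hγ, mul_inv]
    congr 1
    have h1 := zeta_pow_val_neg (p := p) (χ γ)
    exact (eq_inv_of_mul_eq_one_left h1).symm ▸ rfl
  · have h1 : β⁻¹ - 1 = -((β - 1) * β⁻¹) := by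
      field_simp [hβ.1]
      ring
    show VGe (Pp p) (p : Kb) (β⁻¹ - 1) n _
    rw [h1]
    exact vge_neg (vge_mul_mem hβ.2.2 hβi)

/-- **L1**. -/
theorem levExistsProp : LevExistsProp p := by
  intro k _ _ ρbar s _ n χ hn hn' ⟨β, hβ⟩
  have hmem : (β ^ p - 1) / s.ϖ ^ n ∈ Pp p := by
    have h := pow_p_sub_one_div_mem (P := Pp p) (Fact.out : p.Prime) p_ne_zero p_mem_nonunits
      hn hn' s.ϖ_ge s.ϖ_le hβ.2.2
    rwa [add_sub_cancel] at h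
  exact ⟨IsLocalRing.residue ↥(Pp p) ⟨_, hmem⟩, β, hβ, hmem, rfl⟩

/-- **L3**. -/
theorem levAddProp : LevAddProp p := by
  intro k _ _ ρbar s _ n χ χ' a a' hn ⟨β, hβ, ha⟩ ⟨β', hβ', ha'⟩
  have hm := kumGE_sub_one_mem s hn hβ
  have hm' := kumGE_sub_one_mem s hn hβ'
  obtain ⟨hβP, -⟩ := mem_of_sub_one hm
  obtain ⟨hβ'P, -⟩ := mem_of_sub_one hm'
  refine ⟨β * β', ⟨mul_ne_zero hβ.1 hβ'.1, fun γ hγ => ?_, ?_⟩, ?_⟩
  · rw [map_mul, hβ.2.1 γ hγ, hβ'.2.1 γ hγ, zeta_pow_val_add]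
    ring
  · have h1 : β * β' - 1 = (β - 1) * β' + (β' - 1) := by ring
    show VGe (Pp p) (p : Kb) (β * β' - 1) n _
    rw [h1]
    exact vge_add p_ne_zero (vge_mul_mem hβ.2.2 hβ'P) hβ'.2.2
  · have h1 : ((β * β') ^ p - 1) / s.ϖ ^ n
        = (β ^ p - 1) / s.ϖ ^ n * β' ^ p + (β' ^ p - 1) / s.ϖ ^ n := by
      rw [mul_pow]
      ring
    rw [h1]
    have h2 : ResIs (Pp p) (β' ^ p) 1 := by
      have := (resIs_one_of_sub_mem hm').pow p
      rwa [one_pow] at this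
    have h3 := (ResIs.mul ha h2).add ha'
    rwa [mul_one] at h3

/-- **L6**. -/
theorem levConjProp : LevConjProp p := by
  intro k _ _ ρbar s _ σ hσ q e hq he n χ a ⟨β, hβ, ha⟩
  have hζ : σ (zetaP p) = zetaP p ^ ((cycloChar p σ : (ZMod p)ˣ) : ZMod p).val :=
    Fermat.Agent.S56.SO.cycloc_apply_root p σ (zetaP p) zeta_pow_p
  refine ⟨σ β, ⟨?_, fun γ hγ => ?_, ?_⟩, ?_⟩
  · exact (map_ne_zero _).2 hβ.1
  · have hσi : σ⁻¹ ∈ Dp p := (Dp p).inv_mem hσ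
    have hconj : σ⁻¹ * γ * σ ∈ I1 s := by
      have := KNCoh.conj_mem_I1 s hσi hγ
      rwa [inv_inv] at this
    have h1 := hβ.2.1 _ hconj
    have h2 : γ (σ β) = σ ((σ⁻¹ * γ * σ) β) := by
      show γ (σ β) = σ (σ⁻¹ (γ (σ β)))
      exact (AlgEquiv.apply_symm_apply σ _).symm
    rw [h2, h1, map_mul, map_pow, hζ, zeta_pow_val_mul]
  · have h1 : (σ β - 1) ^ (p * (p ^ 2 - 1)) / (p : Kb) ^ n
        = σ ((β - 1) ^ (p * (p ^ 2 - 1)) / (p : Kb) ^ n) := by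
      rw [map_div₀, map_pow, map_pow, map_sub, map_one, map_natCast]
    show (σ β - 1) ^ (p * (p ^ 2 - 1)) / (p : Kb) ^ n ∈ Pp p
    rw [h1]
    exact Fermat.Agent.S56.TWGen.apply_mem (Pp p) hσ hβ.2.2
  · have hϖ : s.ϖ ≠ 0 := s.ϖ_le.1
    have h1 : ((σ β) ^ p - 1) / s.ϖ ^ n
        = (σ s.ϖ / s.ϖ) ^ n * σ ((β ^ p - 1) / s.ϖ ^ n) := by
      rw [map_div₀, map_pow, map_sub, map_pow, map_one, div_pow]
      have : σ s.ϖ ≠ 0 := (map_ne_zero _).2 hϖ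
      field_simp
    rw [h1]
    obtain ⟨hX, hXa⟩ := ha
    have h2 : ResIs (Pp p) (σ ((β ^ p - 1) / s.ϖ ^ n)) (a ^ q) :=
      (ResIs.pow ⟨hX, hXa⟩ q).congr (hq _ hX)
    exact (ResIs.pow he n).mul h2

end Fermat.Agent.S56.SS
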