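/-
S56, wall W4, case C, block KN, seat **LEV-B** (helper13): `ϖ` is a uniformiser of `K₁ = ℚ̄^{I₁}`.

* `unifProp      : UnifProp p`      an `I₁`-fixed nonunit of `P` is divisible by `ϖ`
                                    (VAL: the inertia orbit has at most `N = p² - 1` elements);
* `levUniqueProp : LevUniqueProp p` leading coefficients at the levels `p² + 1 ≤ n < p² + p` are
                                    unique;
* `levNextProp   : LevNextProp p`   leading coefficient `0` at level `n` ⟹ good at level `n + 1`.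
-/
import Fermat.Agent.S56.W4.C.KN.Defs
import Fermat.Agent.S56.W4.C.KN.Coh
import Fermat.Agent.S56.W4.C.TR.Val
import Fermat.Agent.Lib.FFL.FB.Binom
import Fermat.Agent.Lib.FFL.Arith

set_option autoImplicit false

namespace Fermat.Agent.S56.SS

open Fermat.Agent.F4 ExtCitation Fermat.Agent.FFL Fermat.Agent.FlatMod

local notation "Kb" => AlgebraicClosure ℚ
local notation "GK" => (AlgebraicClosure ℚ ≃ₐ[ℚ] AlgebraicClosure ℚ)

namespace LevB

variable {p : ℕ} [Fact p.Prime] {k : Type} [Field k] {ρbar : ResidualGaloisRep k}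

/-! ### Generalities -/

theorem liesOver : (Pp p).LiesOverPrime p :=
  Fermat.Agent.S56.primeLocalPlace_liesOverPrime (pPrime p)

theorem N_pos : 0 < p ^ 2 - 1 := by
  have h2 : 2 ≤ p := (Fact.out : p.Prime).two_le
  have : 4 ≤ p ^ 2 := by nlinarith
  omega

theorem val_p_lt : (Pp p).valuation (p : Kb) < 1 :=
  (ValuationSubring.mem_nonunits_iff _).1 liesOver

theorem val_p_ne : (Pp p).valuation (p : Kb) ≠ 0 :=
  (Valuation.ne_zero_iff _).2 (Nat.cast_ne_zero.2 (Fact.out : p.Prime).ne_zero)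

theorem mem_of_pow_mem {z : Kb} {n : ℕ} (hn : n ≠ 0) (h : z ^ n ∈ Pp p) : z ∈ Pp p := by
  rw [← (Pp p).valuation_le_one_iff] at h ⊢
  rw [map_pow] at h
  by_contra hlt
  rw [not_le] at hlt
  exact absurd h (not_le.2 (one_lt_pow₀ hlt hn))

variable (s : SSStruct p ρbar)

theorem varpi_ne : s.ϖ ≠ 0 := s.ϖ_le.1

/-- `v(ϖ)^N = v(p)`. -/
theorem val_varpi_pow : (Pp p).valuation s.ϖ ^ (p ^ 2 - 1) = (Pp p).valuation (p : Kb) := by
  have h1 : s.ϖ ^ (p ^ 2 - 1) / (p : Kb) ^ 1 ∈ Pp p := s.ϖ_ge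
  have h2 : (p : Kb) ^ 1 / s.ϖ ^ (p ^ 2 - 1) ∈ Pp p := s.ϖ_le.2
  rw [← (Pp p).valuation_le_one_iff, map_div₀, map_pow, map_pow, pow_one] at h1 h2
  have hp0 : 0 < (Pp p).valuation (p : Kb) := zero_lt_iff.2 val_p_ne
  have hϖ0 : 0 < (Pp p).valuation s.ϖ ^ (p ^ 2 - 1) :=
    zero_lt_iff.2 (pow_ne_zero _ ((Valuation.ne_zero_iff _).2 (varpi_ne s)))
  rw [div_le_one₀ hp0] at h1
  rw [div_le_one₀ hϖ0] at h2
  exact le_antisymm h1 h2

theorem val_varpi_lt : (Pp p).valuation s.ϖ < 1 := by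
  by_contra h
  rw [not_lt] at h
  have h1 : 1 ≤ (Pp p).valuation s.ϖ ^ (p ^ 2 - 1) := one_le_pow₀ h
  rw [val_varpi_pow] at h1
  exact absurd val_p_lt (not_lt.2 h1)

theorem val_varpi_ne : (Pp p).valuation s.ϖ ≠ 0 := (Valuation.ne_zero_iff _).2 (varpi_ne s)

/-- Powers of `τ` applied to an `I₁`-fixed element only depend on the exponent modulo `N`. -/
theorem tau_pow_apply_mod {x : Kb} (hx : ∀ γ ∈ I1 s, γ x = x) (n : ℕ) :
    (s.τ ^ n) x = (s.τ ^ (n % (p ^ 2 - 1))) x := by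
  have hN : (s.τ ^ (p ^ 2 - 1)) x = x := hx _ (KNCoh.tau_pow_N_mem_I1 s)
  have hm : ∀ m : ℕ, ((s.τ ^ (p ^ 2 - 1)) ^ m) x = x := by
    intro m
    induction m with
    | zero => simp
    | succ m ih => rw [pow_succ, AlgEquiv.mul_apply, hN, ih]
  conv_lhs => rw [← Nat.mod_add_div n (p ^ 2 - 1)]
  rw [pow_add, pow_mul, AlgEquiv.mul_apply, hm]

/-- **UNIF**, valuation form. -/
theorem unif {x : Kb} (hx : x ∈ (Pp p).nonunits) (hfix : ∀ γ ∈ I1 s, γ x = x) :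
    x / s.ϖ ∈ Pp p := by
  classical
  have hN : 0 < p ^ 2 - 1 := N_pos
  -- the inertia orbit of `x` lies in `{τ^j x : j < N}`
  have hT : ∀ σ ∈ (Pp p).inertiaSubgroupIn ℚ,
      σ x ∈ (Finset.range (p ^ 2 - 1)).image (fun j : ℕ => (s.τ ^ j) x) := by
    intro σ hσ
    obtain ⟨n, γ, hγ, rfl⟩ := KNCoh.exists_pow_mul_I1 s hσ
    rw [AlgEquiv.mul_apply, hfix γ hγ, tau_pow_apply_mod s hfix n]
    exact Finset.mem_image.2 ⟨n % (p ^ 2 - 1), Finset.mem_range.2 (Nat.mod_lt _ hN), rfl⟩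
  have hcard : ((Finset.range (p ^ 2 - 1)).image (fun j : ℕ => (s.τ ^ j) x)).card ≤ p ^ 2 - 1 :=
    Finset.card_image_le.trans (by rw [Finset.card_range])
  have hval : ValGE p (Pp p) x 1 (p ^ 2 - 1) :=
    valOrbitProp p (Pp p) (Fact.out : p.Prime) liesOver x _ (p ^ 2 - 1) hx hT hcard hN
  have h1 : x ^ (p ^ 2 - 1) / (p : Kb) ^ 1 ∈ Pp p := hval
  have h2 : (p : Kb) ^ 1 / s.ϖ ^ (p ^ 2 - 1) ∈ Pp p := s.ϖ_le.2
  have hp0 : (p : Kb) ≠ 0 := Nat.cast_ne_zero.2 (Fact.out : p.Prime).ne_zero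
  refine mem_of_pow_mem hN.ne' ?_
  have h3 : (x / s.ϖ) ^ (p ^ 2 - 1) =
      x ^ (p ^ 2 - 1) / (p : Kb) ^ 1 * ((p : Kb) ^ 1 / s.ϖ ^ (p ^ 2 - 1)) := by
    rw [div_pow]
    field_simp
  rw [h3]
  exact (Pp p).mul_mem _ _ h1 h2

/-! ### Valuation arithmetic -/

theorem valGE_iff (x : Kb) (a b : ℕ) :
    ValGE p (Pp p) x a b ↔ (Pp p).valuation x ^ b ≤ (Pp p).valuation (p : Kb) ^ a := by
  unfold ValGE
  rw [← (Pp p).valuation_le_one_iff, map_div₀, map_pow, map_pow,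
    div_le_one₀ (zero_lt_iff.2 (pow_ne_zero _ val_p_ne))]

theorem pN_pos : 0 < p * (p ^ 2 - 1) :=
  Nat.mul_pos (Fact.out : p.Prime).pos N_pos

theorem lt_one_of_pow_lt_one {K₀ : Type*} [LinearOrderedCommGroupWithZero K₀] {a : K₀} {n : ℕ}
    (h : a ^ n < 1) : a < 1 := by
  by_contra hlt
  rw [not_lt] at hlt
  exact absurd h (not_lt.2 (one_le_pow₀ hlt))

/-- A Kummer generator of positive depth is congruent to `1`. -/
theorem val_sub_one_lt {n : ℕ} (hn : 0 < n) {β : Kb}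
    (h : ValGE p (Pp p) (β - 1) n (p * (p ^ 2 - 1))) : (Pp p).valuation (β - 1) < 1 := by
  rw [valGE_iff] at h
  refine lt_one_of_pow_lt_one (lt_of_le_of_lt h ?_)
  exact pow_lt_one₀ zero_le val_p_lt hn.ne'

theorem val_eq_one_of_sub {β : Kb} (h : (Pp p).valuation (β - 1) < 1) :
    (Pp p).valuation β = 1 := by
  have h1 : β = 1 + (β - 1) := by ring
  rw [h1]
  exact Valuation.map_one_add_of_lt _ h

theorem mem_of_val_sub {β : Kb} (h : (Pp p).valuation (β - 1) < 1) : β ∈ Pp p := by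
  rw [← (Pp p).valuation_le_one_iff, val_eq_one_of_sub h]

/-- `I₁` fixes `ϖ`. -/
theorem varpi_fix {γ : GK} (hγ : γ ∈ I1 s) : γ s.ϖ = s.ϖ := s.ϖ_fix γ hγ.1 hγ.2

/-- `(1 + x)^p - 1 = x^p + p x g` with `g ∈ P`. -/
theorem binom_sub_one {x : Kb} (hx : x ∈ Pp p) :
    ∃ g ∈ Pp p, (1 + x) ^ p - 1 = x ^ p + (p : Kb) * x * g := by
  obtain ⟨T, hT⟩ := Fermat.Agent.FFL.FB.fb_exists_binom p (Fact.out : p.Prime)
  have hT' := hT Kb x
  obtain ⟨t, ht, hT''⟩ : ∃ t ∈ Pp p,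
      (1 + x) ^ p = 1 + (p : Kb) * x + (p : Kb) * x ^ 2 * t + x ^ p :=
    ⟨_, ar_aeval_mem (Pp p) T hx, hT'⟩
  refine ⟨1 + x * t, (Pp p).add_mem _ _ (Pp p).one_mem ((Pp p).mul_mem _ _ hx ht), ?_⟩
  linear_combination hT''

/-- The `p`-th power of a Kummer generator is fixed by `I₁`. -/
theorem kum_pow_fix {χ : GK → ZMod p} {β : Kb}
    (hβ : ∀ γ ∈ I1 s, γ β = zetaP p ^ (χ γ).val * β) {γ : GK} (hγ : γ ∈ I1 s) :
    γ (β ^ p) = β ^ p := by
  have h1 : (zetaP p ^ (χ γ).val) ^ p = 1 := by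
    rw [← pow_mul, mul_comm, pow_mul, (zetaP_spec p).pow_eq_one, one_pow]
  rw [map_pow, hβ γ hγ, mul_pow, h1, one_mul]

/-! ### UNIQUE -/

/-- If `x` is `I₁`-fixed with `v(x) ≥ n/(pN)`, `n ≥ p² + 1`, then `v(x) ≥ (p + 1)/N`. -/
theorem div_varpi_pow_mem {x : Kb} {n : ℕ} (hn : p ^ 2 + 1 ≤ n)
    (hx : (Pp p).valuation x ^ (p * (p ^ 2 - 1)) ≤ (Pp p).valuation (p : Kb) ^ n)
    (hfix : ∀ γ ∈ I1 s, γ x = x) : x / s.ϖ ^ (p + 1) ∈ Pp p := by
  have hnon : x / s.ϖ ^ p ∈ (Pp p).nonunits := by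
    rw [ValuationSubring.mem_nonunits_iff]
    refine lt_one_of_pow_lt_one (n := p * (p ^ 2 - 1)) ?_
    have hϖpow : ((Pp p).valuation s.ϖ ^ p) ^ (p * (p ^ 2 - 1)) =
        (Pp p).valuation (p : Kb) ^ (p * p) := by
      rw [← val_varpi_pow s, ← pow_mul, ← pow_mul]
      congr 1
      ring
    rw [map_div₀, map_pow, div_pow, hϖpow]
    have hpp : 0 < (Pp p).valuation (p : Kb) ^ (p * p) :=
      zero_lt_iff.2 (pow_ne_zero _ val_p_ne)
    rw [div_lt_one₀ hpp]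
    refine lt_of_le_of_lt hx ?_
    have hlt : p * p < n := by nlinarith
    exact pow_lt_pow_right_of_lt_one₀ (zero_lt_iff.2 val_p_ne) val_p_lt hlt
  have hfix' : ∀ γ ∈ I1 s, γ (x / s.ϖ ^ p) = x / s.ϖ ^ p := by
    intro γ hγ
    rw [map_div₀, map_pow, hfix γ hγ, varpi_fix s hγ]
  have h := unif s hnon hfix'
  have h2 : x / s.ϖ ^ p / s.ϖ = x / s.ϖ ^ (p + 1) := by
    rw [div_div, ← pow_succ]
  rwa [h2] at h

/-- If `x ∈ P` has `v(x) ≥ (p + 1)/N` then `v((1 + x)^p - 1) ≥ (p² + p)/N`. -/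
theorem binom_div_mem {x : Kb} (hx : x / s.ϖ ^ (p + 1) ∈ Pp p) :
    ((1 + x) ^ p - 1) / s.ϖ ^ (p ^ 2 + p) ∈ Pp p := by
  have hϖ : s.ϖ ≠ 0 := varpi_ne s
  have hϖP : s.ϖ ∈ Pp p := ((Pp p).valuation_le_one_iff _).1 (val_varpi_lt s).le
  have hxP : x ∈ Pp p := by
    have h1 : x = x / s.ϖ ^ (p + 1) * s.ϖ ^ (p + 1) := by field_simp
    rw [h1]
    exact (Pp p).mul_mem _ _ hx (pow_mem hϖP _)
  obtain ⟨g, hg, hbin⟩ := binom_sub_one hxP
  have hpϖ : (p : Kb) ^ 1 / s.ϖ ^ (p ^ 2 - 1) ∈ Pp p := s.ϖ_le.2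
  have hsplit : p ^ 2 + p = (p ^ 2 - 1) + (p + 1) := by
    have := N_pos (p := p)
    omega
  have hsplit2 : p ^ 2 + p = (p + 1) * p := by ring
  have h1 : ((1 + x) ^ p - 1) / s.ϖ ^ (p ^ 2 + p) =
      (x / s.ϖ ^ (p + 1)) ^ p +
        (p : Kb) ^ 1 / s.ϖ ^ (p ^ 2 - 1) * (x / s.ϖ ^ (p + 1)) * g := by
    rw [hbin, add_div]
    congr 1
    · rw [div_pow, ← pow_mul, ← hsplit2]
    · rw [hsplit, pow_add, pow_one]
      field_simp
  rw [h1]
  exact (Pp p).add_mem _ _ (pow_mem hx _) ((Pp p).mul_mem _ _ ((Pp p).mul_mem _ _ hpϖ hx) hg)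

theorem mem_nonunits_of_div_pow {z : Kb} {m n : ℕ} (hmn : n < m) (h : z / s.ϖ ^ m ∈ Pp p) :
    z / s.ϖ ^ n ∈ (Pp p).nonunits := by
  have hϖ : s.ϖ ≠ 0 := varpi_ne s
  have h1 : z / s.ϖ ^ n = z / s.ϖ ^ m * s.ϖ ^ (m - n) := by
    have h0 : s.ϖ ^ m = s.ϖ ^ n * s.ϖ ^ (m - n) := by
      rw [← pow_add]
      congr 1
      omega
    rw [h0]
    field_simp
  rw [h1, ValuationSubring.mem_nonunits_iff, map_mul, map_pow]
  have h2 : (Pp p).valuation (z / s.ϖ ^ m) ≤ 1 := ((Pp p).valuation_le_one_iff _).2 h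
  have h3 : (Pp p).valuation s.ϖ ^ (m - n) < 1 :=
    pow_lt_one₀ zero_le (val_varpi_lt s) (by omega)
  calc (Pp p).valuation (z / s.ϖ ^ m) * (Pp p).valuation s.ϖ ^ (m - n)
      ≤ 1 * (Pp p).valuation s.ϖ ^ (m - n) := mul_le_mul_left h2 _
    _ < 1 := by rw [one_mul]; exact h3

/-- Equality of residues from a congruence. -/
theorem isRes_unique {x x' : Kb} {a a' : Kres p} (hx : IsRes x a) (hx' : IsRes x' a')
    (h : x - x' ∈ (Pp p).nonunits) : a = a' := by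
  obtain ⟨h1, rfl⟩ := hx
  obtain ⟨h2, rfl⟩ := hx'
  rw [← sub_eq_zero, ← map_sub, IsLocalRing.residue_eq_zero_iff]
  obtain ⟨h3, h4⟩ := (ValuationSubring.mem_nonunits_iff_exists_mem_maximalIdeal).1 h
  exact h4

theorem levUnique (n : ℕ) (χ : GK → ZMod p) (a a' : Kres p) (hn : p ^ 2 + 1 ≤ n)
    (hn2 : n < p ^ 2 + p) (h : LcIs s n χ a) (h' : LcIs s n χ a') : a = a' := by
  obtain ⟨β, ⟨hβ0, hβ, hβv⟩, hres⟩ := h
  obtain ⟨β', ⟨hβ'0, hβ', hβ'v⟩, hres'⟩ := h'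
  have hn0 : 0 < n := by omega
  have hv1 := val_sub_one_lt hn0 hβv
  have hv1' := val_sub_one_lt hn0 hβ'v
  have hvβ' : (Pp p).valuation β' = 1 := val_eq_one_of_sub hv1'
  have hβ'P : β' ∈ Pp p := mem_of_val_sub hv1'
  -- `x = β/β' - 1`
  set x : Kb := β / β' - 1 with hx
  have hxfix : ∀ γ ∈ I1 s, γ x = x := by
    intro γ hγ
    have hζ : zetaP p ^ (χ γ).val ≠ 0 := pow_ne_zero _ ((zetaP_spec p).ne_zero
      (Fact.out : p.Prime).ne_zero)
    rw [hx, map_sub, map_one, map_div₀, hβ γ hγ, hβ' γ hγ, mul_div_mul_left _ _ hζ]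
  have hxval : (Pp p).valuation x ^ (p * (p ^ 2 - 1)) ≤ (Pp p).valuation (p : Kb) ^ n := by
    have h1 : x = ((β - 1) - (β' - 1)) / β' := by
      rw [hx]; field_simp; ring
    rw [valGE_iff] at hβv hβ'v
    rw [h1, map_div₀, hvβ', div_one]
    rcases le_total ((Pp p).valuation (β - 1)) ((Pp p).valuation (β' - 1)) with hle | hle
    · refine le_trans (pow_le_pow_left₀ zero_le ?_ _) hβ'v
      exact (Valuation.map_sub _ _ _).trans (max_le hle le_rfl)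
    · refine le_trans (pow_le_pow_left₀ zero_le ?_ _) hβv
      exact (Valuation.map_sub _ _ _).trans (max_le le_rfl hle)
  have hx1 := div_varpi_pow_mem s hn hxval hxfix
  have hx2 := binom_div_mem s hx1
  have hx3 := mem_nonunits_of_div_pow s hn2 hx2
  refine isRes_unique hres hres' ?_
  have hw : 1 + x = β / β' := by rw [hx]; ring
  rw [hw] at hx3
  have h4 : (β ^ p - 1) / s.ϖ ^ n - (β' ^ p - 1) / s.ϖ ^ n =
      ((β / β') ^ p - 1) / s.ϖ ^ n * β' ^ p := by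
    have e : (β / β') ^ p * β' ^ p = β ^ p := by
      rw [div_pow, div_mul_cancel₀ _ (pow_ne_zero _ hβ'0)]
    rw [← sub_div, div_mul_eq_mul_div, sub_mul, one_mul, e]
    congr 1
    ring
  rw [h4]
  exact Fermat.Agent.FFL.red_mul_mem_nonunits_right (Pp p) hx3 (pow_mem hβ'P _)

/-! ### NEXT -/

theorem levNext (n : ℕ) (χ : GK → ZMod p) (hn : p ^ 2 + 1 ≤ n) (hn2 : n < p ^ 2 + p)
    (h : LcIs s n χ 0) : GoodAt s (n + 1) χ := by
  obtain ⟨β, ⟨hβ0, hβ, hβv⟩, hP, hres⟩ := h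
  refine ⟨β, hβ0, hβ, ?_⟩
  have hn0 : 0 < n := by omega
  have hv1 := val_sub_one_lt hn0 hβv
  -- `(β^p - 1)/ϖ^n` is an `I₁`-fixed nonunit
  have hnon : (β ^ p - 1) / s.ϖ ^ n ∈ (Pp p).nonunits := by
    rw [IsLocalRing.residue_eq_zero_iff] at hres
    exact (ValuationSubring.mem_nonunits_iff_exists_mem_maximalIdeal).2 ⟨hP, hres⟩
  have hfix : ∀ γ ∈ I1 s, γ ((β ^ p - 1) / s.ϖ ^ n) = (β ^ p - 1) / s.ϖ ^ n := by
    intro γ hγ
    rw [map_div₀, map_sub, map_one, map_pow γ s.ϖ, kum_pow_fix s hβ hγ, varpi_fix s hγ]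
  have h1 := unif s hnon hfix
  have h2 : (β ^ p - 1) / s.ϖ ^ n / s.ϖ = (β ^ p - 1) / s.ϖ ^ (n + 1) := by
    rw [div_div, ← pow_succ]
  rw [h2, ← (Pp p).valuation_le_one_iff, map_div₀, map_pow,
    div_le_one₀ (zero_lt_iff.2 (pow_ne_zero _ (val_varpi_ne s)))] at h1
  -- `y = β - 1`
  have hyP : β - 1 ∈ Pp p := ((Pp p).valuation_le_one_iff _).1 hv1.le
  obtain ⟨g, hg, hbin⟩ := binom_sub_one hyP
  have hβy : 1 + (β - 1) = β := by ring
  rw [hβy] at hbin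
  rw [valGE_iff]
  have hgv : (Pp p).valuation g ≤ 1 := ((Pp p).valuation_le_one_iff _).2 hg
  have hpN : p * (p ^ 2 - 1) = (p - 1) * (p ^ 2 + p) := by
    have h1 : 1 ≤ p := (Fact.out : p.Prime).pos
    have h2 : 1 ≤ p ^ 2 := Nat.one_le_pow _ _ h1
    zify [h1, h2]
    ring
  rcases le_or_gt ((Pp p).valuation (β - 1) ^ (p - 1)) ((Pp p).valuation (p : Kb)) with hc | hc
  · -- `v(y) ≥ 1/(p-1)`
    rw [hpN, pow_mul]
    refine (pow_le_pow_left₀ zero_le hc _).trans ?_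
    exact pow_le_pow_of_le_one zero_le val_p_lt.le (by omega)
  · -- `v(y) < 1/(p-1)`: `β^p - 1 = y^p · unit`
    have hy0 : (Pp p).valuation (β - 1) ≠ 0 := by
      intro h0
      have hp1 : p - 1 ≠ 0 := by
        have := (Fact.out : p.Prime).two_le
        omega
      rw [h0, zero_pow hp1] at hc
      exact absurd hc (not_lt.2 zero_le)
    have hlt : (Pp p).valuation ((p : Kb) * (β - 1) * g) < (Pp p).valuation ((β - 1) ^ p) := by
      rw [map_mul, map_mul, map_pow]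
      have hp1 : p = (p - 1) + 1 := by
        have := (Fact.out : p.Prime).pos
        omega
      calc (Pp p).valuation (p : Kb) * (Pp p).valuation (β - 1) * (Pp p).valuation g
          ≤ (Pp p).valuation (p : Kb) * (Pp p).valuation (β - 1) * 1 := mul_le_mul_right hgv _
        _ = (Pp p).valuation (p : Kb) * (Pp p).valuation (β - 1) := mul_one _
        _ < (Pp p).valuation (β - 1) ^ (p - 1) * (Pp p).valuation (β - 1) :=
            mul_lt_mul_of_pos_right hc (zero_lt_iff.2 hy0)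
        _ = (Pp p).valuation (β - 1) ^ p := by rw [← pow_succ, ← hp1]
    have hval : (Pp p).valuation (β ^ p - 1) = (Pp p).valuation (β - 1) ^ p := by
      rw [hbin, Valuation.map_add_eq_of_lt_left _ hlt, map_pow]
    rw [hval] at h1
    rw [mul_comm p, pow_mul']
    calc ((Pp p).valuation (β - 1) ^ p) ^ (p ^ 2 - 1)
        ≤ ((Pp p).valuation s.ϖ ^ (n + 1)) ^ (p ^ 2 - 1) := pow_le_pow_left₀ zero_le h1 _
      _ = (Pp p).valuation (p : Kb) ^ (n + 1) := by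
          rw [← pow_mul, mul_comm, pow_mul, val_varpi_pow s]

end LevB

/-- **UNIF**: an `I₁`-fixed nonunit of `P` is divisible by `ϖ`. -/
theorem unifProp (p : ℕ) [Fact p.Prime] : UnifProp p := by
  intro k _ _ ρbar s _ x hx hfix
  exact LevB.unif s hx hfix

/-- **L2**: leading coefficients at the levels `p² + 1 ≤ n < p² + p` are unique. -/
theorem levUniqueProp (p : ℕ) [Fact p.Prime] : LevUniqueProp p := by
  intro k _ _ ρbar s _ _ n χ a a' hn hn2 h h'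
  exact LevB.levUnique s n χ a a' hn hn2 h h'

/-- **L4**: leading coefficient `0` at level `n` ⟹ good at level `n + 1`. -/
theorem levNextProp (p : ℕ) [Fact p.Prime] : LevNextProp p := by
  intro k _ _ ρbar s _ _ n χ hn hn2 h
  exact LevB.levNext s n χ hn hn2 h

end Fermat.Agent.S56.SS
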