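/-
S56, WALL W4, CASE C, BLOCK KN, leaf LEV-C (helper41): **the top level**.

`LevTopProp p`: a character `χ` of `I₁` with a Kummer generator `β`, `v(β - 1) ≥ 1/(p - 1)`
(`= (p² + p)/(p (p² - 1))`), is trivial on `I₁`.

Proof: `ζ` is fixed by `γ ∈ I₁` (`ρbar γ = 1`, so `cyc γ = det ρbar γ = 1`); `v(ζ - 1) = 1/(p-1)`,
so `β = 1 + (ζ - 1) y` with `y ∈ P`; `(ζ^c - 1) β = γ β - β = (ζ - 1)(γ y - y)` with
`γ y - y ∈ 𝔪` (`γ` in inertia), `β` a unit, and `(ζ^c - 1)/(ζ - 1) = 1 + ζ + … + ζ^(c-1) ≡ c`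
modulo `𝔪`: so `c ∈ 𝔪`, i.e. `p ∣ c`, `c = 0`.
-/
import Fermat.Agent.S56.W4.C.KN.Defs
import Fermat.Agent.S56.W4.C.KN.Coh
import Fermat.Agent.S56.W3.Arch
import Fermat.Agent.S56.W3.SO.CycLoc
import Fermat.Agent.S56.W3.SO.Place
import Fermat.Agent.Lib.FFL.FB.FieldRoot
import Fermat.Agent.Lib.FFL.Red
import Fermat.Agent.Lib.Cyclo.RootsReduce

set_option autoImplicit false
set_option linter.unusedVariables false

namespace Fermat.Agent.S56.SS

open Fermat.Agent.F4 ExtCitation Fermat.Agent.FFL Fermat.Agent.FlatMod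

local notation "Kb" => AlgebraicClosure ℚ
local notation "GK" => (AlgebraicClosure ℚ ≃ₐ[ℚ] AlgebraicClosure ℚ)

variable {p : ℕ} [Fact p.Prime] {k : Type} [Field k]

/-- `ζ_p` is fixed by `I₁` (determinant cyclotomic, `ρbar = 1` on `I₁`). -/
theorem levc_zeta_fixed {ρbar : ResidualGaloisRep k} (s : SSStruct p ρbar)
    (hdet : DetCyc p ρbar) {γ : GK} (hγ : γ ∈ I1 s) {μ : Kb} (hμ : μ ^ p = 1) : γ μ = μ := by
  have hp : p.Prime := Fact.out
  have hρ : ρbar.ρ γ = 1 := KNCoh.rho_eq_one_of_mem_I1 s hγ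
  have ha := Fermat.Agent.S56.SO.cycloc_apply_root p γ
  have hd := Fermat.Agent.S56.arch_det_eq p ρbar hdet γ _ ha
  rw [hρ, map_one] at hd
  have hp0 : (p : k) = 0 := Fermat.Agent.S56.arch_p_eq_zero p ρbar hdet
  have hchar : CharP k p := (CharP.charP_iff_prime_eq_zero hp).2 hp0
  have h1 : (((cycloChar p γ : (ZMod p)ˣ) : ZMod p).val : k) = ((1 : ℕ) : k) := by
    rw [Nat.cast_one]
    exact hd.symm
  have h2 := (CharP.natCast_eq_natCast k p).1 h1
  rw [ha μ hμ, pow_eq_pow_mod _ hμ, h2, ← pow_eq_pow_mod _ hμ, pow_one]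

/-- **LEV-C**: a character with a Kummer generator `β`, `v(β - 1) ≥ 1/(p - 1)`, is trivial on
`I₁`. -/
theorem levTopProp : LevTopProp p := by
  intro k _ _ ρbar s hp2 hdet χ hgood γ hγ
  obtain ⟨β, hβ0, hβ, hval⟩ := hgood
  have hp : p.Prime := Fact.out
  have hP : (Pp p).LiesOverPrime p := Fermat.Agent.S56.SO.so_liesOver p
  have hζ : IsPrimitiveRoot (zetaP p) p := zetaP_spec p
  have hζp : zetaP p ^ p = 1 := hζ.pow_eq_one
  have hζ1 : zetaP p ≠ 1 := hζ.ne_one hp.one_lt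
  have hγζ : γ (zetaP p) = zetaP p := levc_zeta_fixed s hdet hγ hζp
  have hγI : γ ∈ Ip p := hγ.1
  have hp0 : (p : Kb) ≠ 0 := ar_p_ne_zero hp
  have hvp0 : (Pp p).valuation (p : Kb) ≠ 0 := (Valuation.ne_zero_iff _).2 hp0
  have hvζ : (Pp p).valuation (zetaP p - 1) ^ (p - 1) = (Pp p).valuation (p : Kb) :=
    FB.val_root_sub_one_pow hp hζp hζ1
  have hζ10 : zetaP p - 1 ≠ 0 := sub_ne_zero.2 hζ1
  have hvζ0 : (Pp p).valuation (zetaP p - 1) ≠ 0 := (Valuation.ne_zero_iff _).2 hζ10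
  have hvp : (Pp p).valuation (p : Kb) < 1 := ar_val_p_lt hP
  have hvζlt : (Pp p).valuation (zetaP p - 1) < 1 := by
    by_contra h
    rw [not_lt] at h
    have h1 : 1 ≤ (Pp p).valuation (zetaP p - 1) ^ (p - 1) := one_le_pow₀ h
    rw [hvζ] at h1
    exact absurd hvp (not_lt.2 h1)
  have hζP : zetaP p ∈ Pp p := by
    have h1 : (Pp p).valuation (zetaP p) ^ p = 1 := by rw [← map_pow, hζp, map_one]
    have h2 := (pow_eq_one_iff_of_nonneg zero_le hp.ne_zero).1 h1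
    exact ((Pp p).valuation_le_one_iff _).1 h2.le
  -- `y = (β - 1) / (ζ - 1) ∈ P`
  have hexp : (p - 1) * (p ^ 2 + p) = p * (p ^ 2 - 1) := by
    obtain ⟨q, rfl⟩ : ∃ q, p = q + 1 := ⟨p - 1, by have := hp.pos; omega⟩
    have h1 : (q + 1) ^ 2 - 1 = q * (q + 2) := by
      have : (q + 1) ^ 2 = q * (q + 2) + 1 := by ring
      omega
    rw [h1, Nat.add_sub_cancel]
    ring
  have hexp0 : p * (p ^ 2 - 1) ≠ 0 := by
    have h1 : 2 ≤ p := hp.two_le
    have h2 : 4 ≤ p ^ 2 := by nlinarith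
    exact Nat.mul_ne_zero hp.ne_zero (by omega)
  have hle : (Pp p).valuation (β - 1) ≤ (Pp p).valuation (zetaP p - 1) := by
    have h1 := ((Pp p).valuation_le_one_iff _).2 hval
    rw [map_div₀, map_pow, map_pow, div_le_iff₀ (pow_pos (zero_lt_iff.2 hvp0) _), one_mul,
      ← hvζ, ← pow_mul, hexp] at h1
    exact (pow_le_pow_iff_left₀ zero_le zero_le hexp0).1 h1
  have hyP : (β - 1) / (zetaP p - 1) ∈ Pp p := by
    rw [← (Pp p).valuation_le_one_iff, map_div₀, div_le_iff₀ (zero_lt_iff.2 hvζ0), one_mul]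
    exact hle
  have hβy : β = 1 + (zetaP p - 1) * ((β - 1) / (zetaP p - 1)) := by
    field_simp
    ring
  have hγβ : γ β = zetaP p ^ (χ γ).val * β := hβ γ hγ
  -- the key identity
  have hkey : (∑ i ∈ Finset.range (χ γ).val, zetaP p ^ i) * β =
      γ ((β - 1) / (zetaP p - 1)) - (β - 1) / (zetaP p - 1) := by
    have h1 : γ β = 1 + (zetaP p - 1) * γ ((β - 1) / (zetaP p - 1)) := by
      conv_lhs => rw [hβy]
      rw [map_add, map_one, map_mul, map_sub, map_one, hγζ]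
    have h2 : (zetaP p - 1) * ((∑ i ∈ Finset.range (χ γ).val, zetaP p ^ i) * β) =
        (zetaP p - 1) * (γ ((β - 1) / (zetaP p - 1)) - (β - 1) / (zetaP p - 1)) := by
      have h3 : (zetaP p - 1) * ((∑ i ∈ Finset.range (χ γ).val, zetaP p ^ i) * β) =
          (zetaP p ^ (χ γ).val - 1) * β := by
        rw [← geom_sum_mul]
        ring
      rw [h3, sub_mul, one_mul, ← hγβ, h1, mul_sub, ← sub_eq_zero]
      nth_rewrite 2 [hβy]
      ring
    exact mul_left_cancel₀ hζ10 h2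
  have hdiff : γ ((β - 1) / (zetaP p - 1)) - (β - 1) / (zetaP p - 1) ∈ (Pp p).nonunits :=
    Fermat.Agent.Cyclo.inertia_sub_mem_nonunits (Pp p) hγI hyP
  have hvβ : (Pp p).valuation β = 1 := by
    have h1 : β = 1 + (β - 1) := by ring
    rw [h1]
    exact Valuation.map_one_add_of_lt _ (lt_of_le_of_lt hle hvζlt)
  have hG : ∑ i ∈ Finset.range (χ γ).val, zetaP p ^ i ∈ (Pp p).nonunits := by
    rw [← hkey, ValuationSubring.mem_nonunits_iff, map_mul, hvβ, mul_one] at hdiff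
    exact (ValuationSubring.mem_nonunits_iff _).2 hdiff
  have hGc : (∑ i ∈ Finset.range (χ γ).val, zetaP p ^ i) - ((χ γ).val : Kb) ∈
      (Pp p).nonunits := by
    have h1 : (∑ i ∈ Finset.range (χ γ).val, zetaP p ^ i) - ((χ γ).val : Kb) =
        ∑ i ∈ Finset.range (χ γ).val, (zetaP p ^ i - 1) := by
      rw [Finset.sum_sub_distrib, Finset.sum_const, Finset.card_range, nsmul_eq_mul, mul_one]
    rw [h1, ValuationSubring.mem_nonunits_iff]
    refine Valuation.map_sum_lt _ one_ne_zero (fun i _ => ?_)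
    have h2 : zetaP p ^ i - 1 = (∑ j ∈ Finset.range i, zetaP p ^ j) * (zetaP p - 1) :=
      (geom_sum_mul _ _).symm
    rw [h2, map_mul]
    have h3 : (Pp p).valuation (∑ j ∈ Finset.range i, zetaP p ^ j) ≤ 1 :=
      ((Pp p).valuation_le_one_iff _).2 (sum_mem (fun j _ => pow_mem hζP j))
    calc (Pp p).valuation (∑ j ∈ Finset.range i, zetaP p ^ j) *
          (Pp p).valuation (zetaP p - 1) ≤ 1 * (Pp p).valuation (zetaP p - 1) :=
          mul_le_mul_left h3 _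
      _ = (Pp p).valuation (zetaP p - 1) := one_mul _
      _ < 1 := hvζlt
  have hc : ((χ γ).val : Kb) ∈ (Pp p).nonunits := by
    have h1 : ((χ γ).val : Kb) = (∑ i ∈ Finset.range (χ γ).val, zetaP p ^ i) -
        ((∑ i ∈ Finset.range (χ γ).val, zetaP p ^ i) - ((χ γ).val : Kb)) := by ring
    rw [h1]
    exact red_sub_mem_nonunits _ hG hGc
  have hne : NeZero p := ⟨hp.ne_zero⟩
  by_contra hχ
  have hval0 : (χ γ).val ≠ 0 := fun h => hχ ((ZMod.val_eq_zero _).1 h)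
  have hlt : (χ γ).val < p := ZMod.val_lt _
  have hnd : ¬ (p : ℤ) ∣ (((χ γ).val : ℕ) : ℤ) := by
    rw [Int.natCast_dvd_natCast]
    exact fun h => hval0 (Nat.eq_zero_of_dvd_of_lt h hlt)
  have h1 := ar_val_int_eq_one hp hP hnd
  rw [ValuationSubring.mem_nonunits_iff] at hc
  rw [Int.cast_natCast] at h1
  rw [h1] at hc
  exact lt_irrefl _ hc

end Fermat.Agent.S56.SS
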