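/-
S56, W4-C, block KN (helper73, sub-architect): `countPropKN : CountProp p`, UNCONDITIONAL.
Leaves: COH, ASM: helper25; GEN: helper51; LEV-A: helper83; LEV-B: helper13; LEV-C: helper41;
TAME: helper97; GRP, DIAG, KEY: helper73.
-/
import Fermat.Agent.S56.W4.C.KN.Key
import Fermat.Agent.S56.W4.C.KN.Asm
import Fermat.Agent.S56.W4.C.KN.LevA
import Fermat.Agent.S56.W4.C.KN.LevB
import Fermat.Agent.S56.W4.C.KN.LevC
import Fermat.Agent.S56.W4.C.KN.FieldGen
import Fermat.Agent.S56.W4.C.KN.Tame

set_option autoImplicit false

namespace Fermat.Agent.S56.SS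

/-- **Block KN**, modulo TAME. -/
theorem countProp_of_tame (p : ℕ) [Fact p.Prime] (htame : TameProp p) : CountProp p :=
  countProp p
    (KNFam.goodGrpProp (levZeroProp p) (levNegProp p) (levExistsProp p) (levAddProp p))
    (KNFam.diagProp (levExistsProp p) (levUniqueProp p) (levAddProp p) (levNextProp p)
      (levTopProp : LevTopProp p) (levConjProp p) htame)
    (KNFam.keyProp (levZeroProp p) (levNegProp p) (levExistsProp p) (levUniqueProp p)
      (levAddProp p) (levNextProp p) (levTopProp : LevTopProp p) (levConjProp p) htame (fieldGenProp p))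

/-- **Block KN**: the good classes restrict to at most `|k|` local classes. -/
theorem countPropKN (p : ℕ) [Fact p.Prime] : CountProp p :=
  countProp_of_tame p (tameProp p)

end Fermat.Agent.S56.SS
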