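/-
S56, wall W4, case C, block KN: three auxiliary lemmas for KEY (owner: helper25, for helper73).

* `ent_conj_frob2`   : the square of a Frobenius element acts trivially on `ad⁰ρbar` (`ρbar φ` is
  anti-diagonal in the basis of `s`, so `ρbar φ²` is a scalar); hence the entries of a cocycle on
  `I₁` are invariant under conjugation by `φ²`.
* `exists_isRes_conj`: `σ ϖ / ϖ` is integral (indeed a unit) for `σ` in the decomposition group.
* `kres_charP`       : the residue field of the place at `p` has characteristic `p`.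
-/
import Fermat.Agent.S56.W4.C.KN.Defs
import Fermat.Agent.S56.W4.C.KN.Coh
import Fermat.Agent.Lib.FrobTrace.Residue

set_option autoImplicit false

namespace Fermat.Agent.S56.SS.KNKeyAux

open Fermat.Agent.F4 ExtCitation Fermat.Agent.S56.SO Fermat.Agent.S56.SS.KNCoh Matrix

local notation "Kb" => AlgebraicClosure ℚ
local notation "GK" => (AlgebraicClosure ℚ ≃ₐ[ℚ] AlgebraicClosure ℚ)

variable {p : ℕ} [Fact p.Prime] {k : Type} [Field k] {ρbar : ResidualGaloisRep k}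

/-! ### (a) the square of Frobenius -/

/-- The action of a Frobenius element, applied twice, fixes the entry `(0, 1)`. -/
theorem mat_act_frob2 (s : SSStruct p ρbar) {φ : GK} (hφ : (Pp p).IsFrobeniusAt φ p)
    (x : ad0 ρbar) :
    mat s.b (toEnd ρbar ((ad0 ρbar).ρ φ ((ad0 ρbar).ρ φ x))) 0 1 =
      mat s.b (toEnd ρbar x) 0 1 := by
  obtain ⟨hF01, hF10, -, -, -, m10⟩ := mat_act_frob s hφ x
  obtain ⟨-, -, -, -, m01, -⟩ := mat_act_frob s hφ ((ad0 ρbar).ρ φ x)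
  have h : mat s.b (toEnd ρbar ((ad0 ρbar).ρ φ ((ad0 ρbar).ρ φ x))) 0 1 *
      (mat s.b (ρbar.ρ φ) 1 0 * mat s.b (ρbar.ρ φ) 0 1) =
      mat s.b (toEnd ρbar x) 0 1 * (mat s.b (ρbar.ρ φ) 1 0 * mat s.b (ρbar.ρ φ) 0 1) := by
    rw [← mul_assoc, m01, mul_assoc, m10]
    ring
  exact mul_right_cancel₀ (mul_ne_zero hF10 hF01) h

/-- **(a)** Conjugation by the square of a Frobenius element does not change the entry `(0, 1)`
of a cocycle on `I₁`. -/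
theorem ent_conj_frob2 (s : SSStruct p ρbar) {φ : GK} (hφ : (Pp p).IsFrobeniusAt φ p)
    (d : ↥(Z1 levelsAll (ad0 ρbar))) {γ : GK} (hγ : γ ∈ I1 s) :
    ent s (cE d) 0 1 ((φ * φ)⁻¹ * γ * (φ * φ)) = ent s (cE d) 0 1 γ := by
  have hφD : φ ∈ Dp p := hφ.mem_decompositionSubgroup
  have hgD : (φ * φ)⁻¹ ∈ Dp p := inv_mem (mul_mem hφD hφD)
  have hγ' : (φ * φ)⁻¹ * γ * (φ * φ) ∈ I1 s := by
    have h := conj_mem_I1 s hgD hγ
    rwa [inv_inv] at h
  have e : γ = (φ * φ) * ((φ * φ)⁻¹ * γ * (φ * φ)) * (φ * φ)⁻¹ := by group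
  have h1 : (d : GQ → ad0 ρbar) γ =
      (ad0 ρbar).ρ φ ((ad0 ρbar).ρ φ ((d : GQ → ad0 ρbar) ((φ * φ)⁻¹ * γ * (φ * φ)))) := by
    conv_lhs => rw [e]
    rw [coc_conj s d (φ * φ) hγ', map_mul, Module.End.mul_apply]
  have h2 : ∀ (δ : GQ), ent s (cE d) 0 1 δ = mat s.b (toEnd ρbar ((d : GQ → ad0 ρbar) δ)) 0 1 := by
    intro δ
    rw [mat_apply]
    rfl
  rw [h2, h2, h1, mat_act_frob2 s hφ]

/-! ### (b) `σ ϖ / ϖ` is integral -/

/-- `σ ϖ / ϖ ∈ P` for `σ` in the decomposition group. -/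
theorem conj_unif_mem (s : SSStruct p ρbar) {σ : GK} (hσ : σ ∈ Dp p) :
    σ s.ϖ / s.ϖ ∈ Pp p := by
  have hp0 : (p : Kb) ≠ 0 := Nat.cast_ne_zero.mpr (Fact.out : p.Prime).ne_zero
  have hge : s.ϖ ^ (p ^ 2 - 1) / (p : Kb) ^ 1 ∈ Pp p := s.ϖ_ge
  obtain ⟨hϖ0, hle⟩ : s.ϖ ≠ 0 ∧ (p : Kb) ^ 1 / s.ϖ ^ (p ^ 2 - 1) ∈ Pp p := s.ϖ_le
  rw [pow_one] at hge hle
  have hN : p ^ 2 - 1 ≠ 0 := by
    have h2 : 2 ≤ p := (Fact.out : p.Prime).two_le
    have : 4 ≤ p ^ 2 := by nlinarith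
    omega
  -- `σ (ϖ^N / p) ∈ P`
  have h1 : σ (s.ϖ ^ (p ^ 2 - 1) / (p : Kb)) ∈ Pp p := Fermat.Agent.S56.TWGen.apply_mem (Pp p) hσ hge
  have h2 : (σ s.ϖ / s.ϖ) ^ (p ^ 2 - 1) =
      σ (s.ϖ ^ (p ^ 2 - 1) / (p : Kb)) * ((p : Kb) / s.ϖ ^ (p ^ 2 - 1)) := by
    rw [map_div₀, map_pow, map_natCast, div_pow]
    field_simp
  have h3 : (σ s.ϖ / s.ϖ) ^ (p ^ 2 - 1) ∈ Pp p := by
    rw [h2]
    exact (Pp p).mul_mem _ _ h1 hle
  rw [← ValuationSubring.valuation_le_one_iff] at h3 ⊢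
  rw [map_pow] at h3
  by_contra hlt
  rw [not_le] at hlt
  exact absurd h3 (not_le.2 (one_lt_pow₀ hlt hN))

/-- **(b)** `σ ϖ / ϖ` has a residue class, for `σ` in the decomposition group. -/
theorem exists_isRes_conj (s : SSStruct p ρbar) {σ : GK} (hσ : σ ∈ Dp p) :
    ∃ e : Kres p, IsRes (σ s.ϖ / s.ϖ) e :=
  ⟨IsLocalRing.residue ↥(Pp p) ⟨σ s.ϖ / s.ϖ, conj_unif_mem s hσ⟩, conj_unif_mem s hσ, rfl⟩

/-! ### (c) the characteristic of the residue field -/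

/-- **(c)** The residue field of the place at `p` has characteristic `p`. -/
theorem kres_charP (p : ℕ) [Fact p.Prime] : CharP (Kres p) p :=
  Fermat.Agent.FrobTrace.charP_residueField (Pp p) (primeLocalPlace_liesOverPrime (pPrime p))

end Fermat.Agent.S56.SS.KNKeyAux
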